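/-
S55 (Poitou–Tate), layer G, leaf G-SIND (`SIndepSpec`, independence of `S`) — sub-interface.
Owner / mini-architect: helper237.  Plan: `coord/S55-G-SIND.md` on `origin/helper237`.

Only definitions and `def XxxSpec : Prop` (no `sorry`).  The assembly
`SIndH237/Assembly.lean` proves

    sIndep_of : ApproxSpec → IntSpec → PrescribedOrdSpec → UnitsCohTrivSpec →
      TwinVanishingSpec (layer T) → SIndepSpec.

INTEGRAL MODEL.  For a finite set `T` of primes:
* `ZS T ⊂ ℚ_T = ∏_{q ∈ T} ℚ_q`   : the subring `∏ ℤ_q` (all components of norm `≤ 1`);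
* `RS T L ⊂ L ⊗ ℚ_T`             : the subring generated by `𝒪_L ⊗ 1` and `1 ⊗ ℤ_T`
                                   (`= 𝒪_L ⊗ ℤ_T = ∏_{w | T} 𝒪_w`);
* `UT T L ⊂ J_T(L)`              : its unit group (`= ∏_{w | T} 𝒪_wˣ`), an additive subgroup
                                   of `Additive (L ⊗ ℚ_T)ˣ`;
* `URep T G L : Rep ℤ G`         : `UT` with the Galois action.
-/
import Fermat.Agent.S55.G.Spec1b

set_option autoImplicit false
set_option linter.unusedSectionVars false

open scoped NumberField TensorProduct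
open IsDedekindDomain CategoryTheory

noncomputable section

namespace Fermat.Agent.S55.G.SIndH237

open Fermat.Agent.S55.G

/-! ## 1. The integral model -/

/-- `ℤ_T = ∏_{q ∈ T} ℤ_q` as a subring of `ℚ_T`. -/
def ZS (T : Finset Nat.Primes) : Subring (QS T) where
  carrier := {c | ∀ q : T, ‖QS.toPi T c q‖ ≤ 1}
  mul_mem' {a b} ha hb q := by
    have h1 : QS.toPi T (a * b) q = QS.toPi T a q * QS.toPi T b q := rfl
    rw [h1, norm_mul]
    exact mul_le_one₀ (ha q) (norm_nonneg _) (hb q)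
  one_mem' q := by
    have h1 : QS.toPi T 1 q = 1 := rfl
    rw [h1, norm_one]
  add_mem' {a b} ha hb q := by
    have h1 : QS.toPi T (a + b) q = QS.toPi T a q + QS.toPi T b q := rfl
    rw [h1]
    have : Fact (q.1 : ℕ).Prime := ⟨q.1.2⟩
    exact (Padic.nonarchimedean _ _).trans (max_le (ha q) (hb q))
  zero_mem' q := by
    have h1 : QS.toPi T 0 q = 0 := rfl
    rw [h1, norm_zero]
    exact zero_le_one
  neg_mem' {a} ha q := by
    have h1 : QS.toPi T (-a) q = -QS.toPi T a q := rfl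
    rw [h1, norm_neg]
    exact ha q

lemma mem_ZS_iff (T : Finset Nat.Primes) (c : QS T) :
    c ∈ ZS T ↔ ∀ q : T, ‖QS.toPi T c q‖ ≤ 1 := Iff.rfl

variable (T : Finset Nat.Primes) (G L : Type) [Group G] [Field L] [NumberField L]
  [MulSemiringAction G L]

/-- The generators of the integral model: `a ⊗ 1` (`a ∈ 𝒪_L`) and `1 ⊗ c` (`c ∈ ℤ_T`). -/
def rsGen : Set (AS T L) :=
  {z | ∃ a : 𝓞 L, z = (a : L) ⊗ₜ[ℚ] (1 : QS T)} ∪ {z | ∃ c ∈ ZS T, z = (1 : L) ⊗ₜ[ℚ] c}

/-- The integral model `𝒪_L ⊗ ℤ_T` inside `L ⊗ ℚ_T`. -/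
def RS : Subring (AS T L) := Subring.closure (rsGen T L)

/-- The unit group `U_T(L)` of the integral model, as an additive subgroup of
`J_T(L) = Additive (L ⊗ ℚ_T)ˣ`. -/
def UT : AddSubgroup (Additive (AS T L)ˣ) where
  carrier := {u | ((u.toMul : (AS T L)ˣ) : AS T L) ∈ RS T L ∧
    (((u.toMul)⁻¹ : (AS T L)ˣ) : AS T L) ∈ RS T L}
  add_mem' {a b} ha hb := by
    refine ⟨?_, ?_⟩
    · change ((a.toMul * b.toMul : (AS T L)ˣ) : AS T L) ∈ RS T L
      rw [Units.val_mul]
      exact (RS T L).mul_mem ha.1 hb.1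
    · change (((a.toMul * b.toMul)⁻¹ : (AS T L)ˣ) : AS T L) ∈ RS T L
      rw [mul_inv, Units.val_mul]
      exact (RS T L).mul_mem ha.2 hb.2
  zero_mem' := by
    refine ⟨?_, ?_⟩
    · change ((1 : (AS T L)ˣ) : AS T L) ∈ RS T L
      rw [Units.val_one]
      exact (RS T L).one_mem
    · change (((1 : (AS T L)ˣ)⁻¹ : (AS T L)ˣ) : AS T L) ∈ RS T L
      rw [inv_one, Units.val_one]
      exact (RS T L).one_mem
  neg_mem' {a} ha := by
    refine ⟨?_, ?_⟩
    · change (((a.toMul)⁻¹ : (AS T L)ˣ) : AS T L) ∈ RS T L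
      exact ha.2
    · change ((((a.toMul)⁻¹)⁻¹ : (AS T L)ˣ) : AS T L) ∈ RS T L
      rw [inv_inv]
      exact ha.1

lemma mem_UT_iff (u : Additive (AS T L)ˣ) :
    u ∈ UT T L ↔ ((u.toMul : (AS T L)ˣ) : AS T L) ∈ RS T L ∧
      (((u.toMul)⁻¹ : (AS T L)ˣ) : AS T L) ∈ RS T L := Iff.rfl

/-! ## 2. Galois action on the integral model -/

lemma asAut_mem_rsGen (g : G) {z : AS T L} (hz : z ∈ rsGen T L) :
    asAut T G L g z ∈ rsGen T L := by
  rcases hz with ⟨a, rfl⟩ | ⟨c, hc, rfl⟩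
  · left
    refine ⟨g • a, ?_⟩
    rw [asAut_tmul]
    rfl
  · right
    refine ⟨c, hc, ?_⟩
    rw [asAut_tmul, smul_one]

lemma asAut_mem_RS (g : G) {z : AS T L} (hz : z ∈ RS T L) : asAut T G L g z ∈ RS T L := by
  induction hz using Subring.closure_induction with
  | mem x hx => exact Subring.subset_closure (asAut_mem_rsGen T G L g hx)
  | zero => rw [map_zero]; exact (RS T L).zero_mem
  | one => rw [map_one]; exact (RS T L).one_mem
  | add x y _ _ hx hy => rw [map_add]; exact (RS T L).add_mem hx hy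
  | neg x _ hx => rw [map_neg]; exact (RS T L).neg_mem hx
  | mul x y _ _ hx hy => rw [map_mul]; exact (RS T L).mul_mem hx hy

lemma UT_stable (g : G) : (UT T L).toIntSubmodule ≤ (UT T L).toIntSubmodule.comap (jRepr G T L g) := by
  intro u hu
  have hu' : u ∈ UT T L := hu
  change jRepr G T L g u ∈ UT T L
  refine ⟨?_, ?_⟩
  · rw [coe_jRepr_apply]
    exact asAut_mem_RS T G L g hu'.1
  · have h1 : (jRepr G T L g u).toMul⁻¹ = (jRepr G T L g (-u)).toMul := by
      rw [map_neg]; rfl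
    rw [h1, coe_jRepr_apply]
    exact asAut_mem_RS T G L g hu'.2

/-- The representation of `G` on `U_T(L)`. -/
def uRepr : Representation ℤ G (UT T L).toIntSubmodule :=
  (jRepr G T L).subrepresentation (UT T L).toIntSubmodule (UT_stable T G L)

/-- `U_T(L)` as an object of `Rep ℤ G`. -/
def URep : Rep ℤ G := Rep.of (uRepr T G L)

/-- The inclusion `U_T(L) ⟶ J_T(L)` in `Rep ℤ G`. -/
def uInclRepHom : URep T G L ⟶ JRep G T L :=
  Rep.ofHom ⟨(UT T L).toIntSubmodule.subtype, fun _ => LinearMap.ext fun _ => rfl⟩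

/-! ## 3. The sub-leaves -/

/-- **SIND-APPROX** (weak approximation).  `J_T(L) = Lˣ · U_T(L)`: every `T`-idèle is the
product of a principal idèle and an integral unit idèle.
(Proof: write `j = ∑ xᵢ ⊗ cᵢ`, approximate the `cᵢ ∈ ℚ_T` by rationals modulo a high power of
`n = ∏_{q ∈ T} q` (CRT + `Padic.rat_dense`), get `y ∈ L` with `j⁻¹ (y ⊗ 1) ∈ 1 + n · RS`;
`n` lies in the Jacobson radical of `ℤ_T`, `RS` is integral over `ℤ_T`, so `1 + n · RS ⊆ RSˣ`.) -/
def ApproxSpec : Prop :=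
  ∀ (T : Finset Nat.Primes) (L : Type) [Field L] [NumberField L] (j : Additive (AS T L)ˣ),
    ∃ x : Additive Lˣ, ∃ u ∈ UT T L, j = unitsDiag T L x + u

/-- **SIND-INT** (principal integral units).  For `x ∈ Lˣ`: `x ⊗ 1 ∈ U_T(L)` iff
`ord_w x = 0` for all primes `w` of `L` above `T`.
(Proof: with a `ℤ`-basis `b_k` of `𝒪_L`, `RS = ⊕ b_k ⊗ ℤ_T`, `L ⊗ ℚ_T = ⊕ b_k ⊗ ℚ_T`; so
`x ⊗ 1 ∈ RS` iff the coordinates of `x` lie in `ℤ_(q)` for all `q ∈ T` iff `x ∈ 𝒪_L[1/s]`,
`s` prime to `T`, iff `ord_w x ≥ 0` for all `w | T`.) -/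
def IntSpec : Prop :=
  ∀ (T : Finset Nat.Primes) (L : Type) [Field L] [NumberField L] (x : Additive Lˣ),
    unitsDiag T L x ∈ UT T L ↔
      ∀ w : HeightOneSpectrum (𝓞 L), IsAbove T L w → ordAt w x = 0

/-- **SIND-ORD** (prescribed orders).  Every divisor supported above `T` is the `T`-part of
the divisor of some `x ∈ Lˣ`.  (Dedekind domain: CRT with uniformisers.) -/
def PrescribedOrdSpec : Prop :=
  ∀ (T : Finset Nat.Primes) (L : Type) [Field L] [NumberField L]
    (d : HeightOneSpectrum (𝓞 L) →₀ ℤ), (∀ w, d w ≠ 0 → IsAbove T L w) →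
    ∃ x : Additive Lˣ, ∀ w : HeightOneSpectrum (𝓞 L), IsAbove T L w → ordAt w x = d w

/-- `L/L^G` is unramified at the primes above `T`: all inertia groups above `T` are trivial. -/
def IsUnramAbove (T : Finset Nat.Primes) (G L : Type) [Group G] [Field L] [NumberField L]
    [MulSemiringAction G L] : Prop :=
  ∀ w : HeightOneSpectrum (𝓞 L), IsAbove T L w →
    ∀ g : G, (∀ x : 𝓞 L, g • x - x ∈ w.asIdeal) → ∀ x : L, g • x = x

/-- **SIND-UCT** (unit idèles at unramified primes are cohomologically trivial).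
If `L/L^G` is unramified at all primes above `T`, then `H¹(H, U_T(L)) = H²(H, U_T(L)) = 0` for
every subgroup `H ≤ G`.
(Routes: (a) `U_T = ∏_{orbits} Coind_{D_w}^H 𝒪_wˣ` (Shapiro, `T.ShapiroRecognitionSpec`,
`T.FiniteProdSpec`) + local statements `Local.UnramUnitsH1/H2Statement`; or (b) directly:
filtration `1 + 𝔔^j · RS`, `𝔔 = ∏_{w | T} w`, graded pieces are modules over `RS` which contains
an element of trace `1` (unramified ⇒ trace form nondegenerate), residue step
`(𝒪_L/𝔔)ˣ = ∏ k_wˣ` by Shapiro + Hilbert 90 + `Local.MulH2FiniteFieldStatement`, and the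
successive approximation lemmas `Local.FiltH1Statement`, `Local.FiltH2Statement`.) -/
def UnitsCohTrivSpec : Prop :=
  ∀ (T : Finset Nat.Primes) (G L : Type) [Group G] [Finite G] [Field L] [NumberField L]
    [MulSemiringAction G L] [FaithfulSMul G L],
    IsUnramAbove T G L →
    ∀ H : Subgroup G,
      Limits.IsZero (groupCohomology (Fermat.Agent.S55.T.resSub (URep T G L) H) 1) ∧
      Limits.IsZero (groupCohomology (Fermat.Agent.S55.T.resSub (URep T G L) H) 2)

end Fermat.Agent.S55.G.SIndH237
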