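/-
S55 (Poitou–Tate), layer G, leaf G-SIND, sub-leaf SIND-APPROX (helper959).

`theorem approx : Fermat.Agent.S55.G.SIndH237.ApproxSpec` — weak approximation in the integral
model: `J_T(L) = Lˣ · U_T(L)`.

Proof (Mathlib only).  `n := ∏_{q ∈ T} q`.
* Part A (`ℚ_T`): `|n|_q = 1/q`; `1 + n c` is a unit of `ℤ_T`; bounded denominators
  (`n ^ k c ∈ ℤ_T`); simultaneous approximation of `c ∈ ℚ_T` by a rational modulo `n ^ N ℤ_T`
  (`PadicInt.appr` + Chinese remainder theorem).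
* Part B: `RS = 𝒪_L ⊗ ℤ_T` is integral over `ℤ_T`, hence every maximal ideal of `RS` contains
  `n` and `1 + n z` is a unit of `RS` for all `z ∈ RS` (`isUnit_one_add_nT_mul`).
* Part C: bounded denominators in `L ⊗ ℚ_T` (`exists_pow_mul_mem_RS`) and density of `L ⊗ 1`
  modulo `n ^ N RS` (`exists_approx`).
* Part D: for a unit `j` choose `k` with `n ^ k j⁻¹ ∈ RS` and `y ∈ L` with
  `j - y ⊗ 1 ∈ n ^ (k + 1) RS`; then `j⁻¹ (y ⊗ 1) ∈ 1 + n RS ⊆ RSˣ`.
-/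
import Fermat.Agent.S55.G.SIndH237.Spec

set_option autoImplicit false
set_option linter.unusedSectionVars false
set_option linter.style.haveILetI false

open scoped NumberField TensorProduct
open IsDedekindDomain

noncomputable section

namespace Fermat.Agent.S55.G.SIndH237.H959

open Fermat.Agent.S55.G Fermat.Agent.S55.G.SIndH237

/-! ## Part A : the semi-local ring `ℚ_T` and its integers `ℤ_T` -/

section PartA

variable (T : Finset Nat.Primes)

/-- `n = ∏_{q ∈ T} q`. -/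
def nT : ℕ := ∏ q ∈ T, (q : ℕ)

lemma nT_pos : 0 < nT T := Finset.prod_pos fun q _ => q.2.pos

lemma nT_ne_zero : nT T ≠ 0 := (nT_pos T).ne'

/-- Two elements of `ℚ_T` with the same components are equal. -/
lemma QS_ext {c d : QS T} (h : ∀ q : T, QS.toPi T c q = QS.toPi T d q) : c = d :=
  (QS.toPi T).injective (funext h)

@[simp] lemma toPi_natCast (m : ℕ) (q : T) : QS.toPi T (m : QS T) q = (m : Qq q.1) := by
  rw [map_natCast]; rfl

@[simp] lemma toPi_mul (c d : QS T) (q : T) :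
    QS.toPi T (c * d) q = QS.toPi T c q * QS.toPi T d q := rfl

@[simp] lemma toPi_add (c d : QS T) (q : T) :
    QS.toPi T (c + d) q = QS.toPi T c q + QS.toPi T d q := rfl

@[simp] lemma toPi_sub (c d : QS T) (q : T) :
    QS.toPi T (c - d) q = QS.toPi T c q - QS.toPi T d q := rfl

@[simp] lemma toPi_pow (c : QS T) (k : ℕ) (q : T) :
    QS.toPi T (c ^ k) q = QS.toPi T c q ^ k := rfl

@[simp] lemma toPi_one (q : T) : QS.toPi T (1 : QS T) q = 1 := rfl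

@[simp] lemma toPi_algebraMap (r : ℚ) (q : T) :
    QS.toPi T (algebraMap ℚ (QS T) r) q = (r : Qq q.1) := by
  have := (QS.proj T q).commutes r
  rw [QS.proj_apply] at this
  rw [this]
  exact (eq_ratCast (algebraMap ℚ (Qq q.1)) r)

@[simp] lemma toPi_symm_apply (f : ∀ q : T, Qq q.1) (q : T) :
    QS.toPi T ((QS.toPi T).symm f) q = f q := rfl

/-- `|n|_q = 1/q` for `q ∈ T`. -/
lemma norm_nT (q : T) : ‖((nT T : ℕ) : Qq q.1)‖ = ((q.1 : ℕ) : ℝ)⁻¹ := by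
  haveI : Fact (Nat.Prime (q.1 : ℕ)) := ⟨q.1.2⟩
  classical
  have h1 : nT T = (q.1 : ℕ) * ∏ q' ∈ T.erase q.1, (q' : ℕ) := by
    rw [nT, Finset.mul_prod_erase T (fun q' : Nat.Primes => (q' : ℕ)) q.2]
  have h2 : Nat.Coprime (q.1 : ℕ) (∏ q' ∈ T.erase q.1, (q' : ℕ)) := by
    refine Nat.Coprime.prod_right fun q' hq' => ?_
    rw [Nat.coprime_primes q.1.2 q'.2]
    intro h
    exact (Finset.ne_of_mem_erase hq') (Subtype.ext h).symm
  rw [h1, Nat.cast_mul, norm_mul, Padic.norm_p, Padic.norm_natCast_eq_one_iff.2 h2, mul_one]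

lemma norm_nT_lt_one (q : T) : ‖((nT T : ℕ) : Qq q.1)‖ < 1 := by
  rw [norm_nT]
  exact inv_lt_one_of_one_lt₀ (by exact_mod_cast q.1.2.one_lt)

lemma norm_nT_pos (q : T) : 0 < ‖((nT T : ℕ) : Qq q.1)‖ := by
  rw [norm_nT]
  exact inv_pos.2 (by exact_mod_cast q.1.2.pos)

lemma nT_cast_ne_zero (q : T) : ((nT T : ℕ) : Qq q.1) ≠ 0 :=
  norm_pos_iff.1 (norm_nT_pos T q)

/-- An element all of whose components have norm `≤ |n|^N` is `n ^ N` times an element of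
`ℤ_T`. -/
lemma exists_eq_pow_mul_of_norm_le (N : ℕ) (d : QS T)
    (hd : ∀ q : T, ‖QS.toPi T d q‖ ≤ ‖((nT T : ℕ) : Qq q.1)‖ ^ N) :
    ∃ d' ∈ ZS T, d = (nT T : QS T) ^ N * d' := by
  refine ⟨(QS.toPi T).symm (fun q => QS.toPi T d q / ((nT T : ℕ) : Qq q.1) ^ N), ?_, ?_⟩
  · intro q
    rw [toPi_symm_apply, norm_div, norm_pow]
    exact div_le_one_of_le₀ (hd q) (pow_nonneg (norm_nonneg _) _)
  · refine QS_ext T fun q => ?_
    rw [toPi_mul, toPi_pow, toPi_natCast, toPi_symm_apply,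
      mul_div_cancel₀ _ (pow_ne_zero _ (nT_cast_ne_zero T q))]

/-- `1 + n c` is a unit of `ℤ_T` for `c ∈ ℤ_T`. -/
lemma isUnit_nT_mul_add_one (c : ZS T) : IsUnit ((nT T : ZS T) * c + 1) := by
  have hnorm : ∀ q : T, ‖QS.toPi T (((nT T : ZS T) * c + 1 : ZS T) : QS T) q‖ = 1 := by
    intro q
    haveI : Fact (Nat.Prime (q.1 : ℕ)) := ⟨q.1.2⟩
    have h1 : QS.toPi T (((nT T : ZS T) * c + 1 : ZS T) : QS T) q =
        ((nT T : ℕ) : Qq q.1) * QS.toPi T (c : QS T) q + 1 := by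
      rw [Subring.coe_add, Subring.coe_mul, Subring.coe_one, Subring.coe_natCast, toPi_add,
        toPi_mul, toPi_natCast, toPi_one]
    rw [h1]
    have h2 : ‖((nT T : ℕ) : Qq q.1) * QS.toPi T (c : QS T) q‖ < 1 := by
      rw [norm_mul]
      calc ‖((nT T : ℕ) : Qq q.1)‖ * ‖QS.toPi T (c : QS T) q‖
          ≤ ‖((nT T : ℕ) : Qq q.1)‖ * 1 :=
            mul_le_mul_of_nonneg_left (c.2 q) (norm_nonneg _)
        _ < 1 := by rw [mul_one]; exact norm_nT_lt_one T q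
    have h3 : ‖((nT T : ℕ) : Qq q.1) * QS.toPi T (c : QS T) q‖ ≠ ‖(1 : Qq q.1)‖ := by
      rw [norm_one]; exact h2.ne
    rw [Padic.add_eq_max_of_ne h3, norm_one, max_eq_right h2.le]
  have hne : ∀ q : T, QS.toPi T (((nT T : ZS T) * c + 1 : ZS T) : QS T) q ≠ 0 := by
    intro q
    rw [← norm_pos_iff, hnorm q]
    exact one_pos
  refine IsUnit.of_mul_eq_one
    (⟨(QS.toPi T).symm (fun q => (QS.toPi T (((nT T : ZS T) * c + 1 : ZS T) : QS T) q)⁻¹),
      ?_⟩ : ZS T) ?_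
  · intro q
    rw [toPi_symm_apply, norm_inv, hnorm q, inv_one]
  · apply Subtype.ext
    rw [Subring.coe_mul, Subring.coe_one]
    refine QS_ext T fun q => ?_
    rw [toPi_mul, toPi_symm_apply, toPi_one, mul_inv_cancel₀ (hne q)]

/-- Bounded denominators: `n ^ k c ∈ ℤ_T` for `k` large. -/
lemma exists_pow_mul_mem_ZS (c : QS T) : ∃ k : ℕ, (nT T : QS T) ^ k * c ∈ ZS T := by
  have h1 : ∀ q : T, ∃ k : ℕ, ‖((nT T : ℕ) : Qq q.1)‖ ^ k * ‖QS.toPi T c q‖ ≤ 1 := by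
    intro q
    have hpos : (0 : ℝ) < 1 / (‖QS.toPi T c q‖ + 1) :=
      div_pos one_pos (by positivity)
    obtain ⟨k, hk⟩ := exists_pow_lt_of_lt_one hpos (norm_nT_lt_one T q)
    refine ⟨k, ?_⟩
    have h2 : ‖((nT T : ℕ) : Qq q.1)‖ ^ k * (‖QS.toPi T c q‖ + 1) ≤ 1 := by
      have := mul_le_mul_of_nonneg_right hk.le
        (by positivity : (0 : ℝ) ≤ ‖QS.toPi T c q‖ + 1)
      rwa [one_div, inv_mul_cancel₀ (by positivity)] at this
    refine le_trans (mul_le_mul_of_nonneg_left (by linarith) (by positivity)) h2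
  choose k hk using h1
  refine ⟨Finset.univ.sup k, fun q => ?_⟩
  rw [toPi_mul, toPi_pow, toPi_natCast, norm_mul, norm_pow]
  refine le_trans (mul_le_mul_of_nonneg_right ?_ (norm_nonneg _)) (hk q)
  exact pow_le_pow_of_le_one (norm_nonneg _) (norm_nT_lt_one T q).le
    (Finset.le_sup (Finset.mem_univ q))

/-- Simultaneous approximation of an element of `ℤ_T` by a natural number. -/
lemma exists_nat_approx (c : QS T) (hc : c ∈ ZS T) (N : ℕ) :
    ∃ r : ℕ, ∀ q : T, ‖QS.toPi T c q - (r : Qq q.1)‖ ≤ ‖((nT T : ℕ) : Qq q.1)‖ ^ N := by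
  classical
  -- local approximations
  let a : T → ℕ := fun q =>
    haveI : Fact (Nat.Prime (q.1 : ℕ)) := ⟨q.1.2⟩
    PadicInt.appr (⟨QS.toPi T c q, hc q⟩ : ℤ_[(q.1 : ℕ)]) N
  let s : T → ℕ := fun q => (q.1 : ℕ) ^ N
  have hs : ∀ q ∈ (Finset.univ : Finset T), s q ≠ 0 := fun q _ =>
    pow_ne_zero _ q.1.2.ne_zero
  have pp : Set.Pairwise (↑(Finset.univ : Finset T)) (Function.onFun Nat.Coprime s) := by
    intro q _ q' _ hne
    show Nat.Coprime ((q.1 : ℕ) ^ N) ((q'.1 : ℕ) ^ N)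
    apply Nat.Coprime.pow
    rw [Nat.coprime_primes q.1.2 q'.1.2]
    intro h
    exact hne (Subtype.ext (Subtype.ext h))
  obtain ⟨r, hr⟩ := Nat.chineseRemainderOfFinset a s Finset.univ hs pp
  refine ⟨r, fun q => ?_⟩
  haveI : Fact (Nat.Prime (q.1 : ℕ)) := ⟨q.1.2⟩
  have hpow : ‖((nT T : ℕ) : Qq q.1)‖ ^ N = ((q.1 : ℕ) : ℝ) ^ (-(N : ℤ)) := by
    rw [norm_nT, zpow_neg, zpow_natCast, inv_pow]
  rw [hpow]
  have h1 : ‖QS.toPi T c q - ((a q : ℕ) : Qq q.1)‖ ≤ ((q.1 : ℕ) : ℝ) ^ (-(N : ℤ)) := by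
    have := PadicInt.appr_spec N (⟨QS.toPi T c q, hc q⟩ : ℤ_[(q.1 : ℕ)])
    rw [← PadicInt.norm_le_pow_iff_mem_span_pow] at this
    exact this
  have h2 : ‖(((a q : ℕ) : Qq q.1) - (r : Qq q.1))‖ ≤ ((q.1 : ℕ) : ℝ) ^ (-(N : ℤ)) := by
    have hmod : r ≡ a q [MOD s q] := hr q (Finset.mem_univ q)
    have hdvd : (((q.1 : ℕ) ^ N : ℕ) : ℤ) ∣ (a q : ℤ) - (r : ℤ) := Nat.modEq_iff_dvd.1 hmod
    have h3 := (Padic.norm_int_le_pow_iff_dvd (p := (q.1 : ℕ)) ((a q : ℤ) - (r : ℤ)) N).2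
      (by exact_mod_cast hdvd)
    have h4 : (((a q : ℤ) - (r : ℤ) : ℤ) : ℚ_[(q.1 : ℕ)]) =
        ((a q : ℕ) : Qq q.1) - (r : Qq q.1) := by push_cast; rfl
    rwa [h4] at h3
  have h5 : QS.toPi T c q - (r : Qq q.1) =
      (QS.toPi T c q - ((a q : ℕ) : Qq q.1)) + (((a q : ℕ) : Qq q.1) - (r : Qq q.1)) := by ring
  rw [h5]
  exact (Padic.nonarchimedean _ _).trans (max_le h1 h2)

/-- Simultaneous approximation of an element of `ℚ_T` by a rational number, modulo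
`n ^ N ℤ_T`. -/
lemma exists_rat_approx (c : QS T) (N : ℕ) :
    ∃ r : ℚ, ∃ d ∈ ZS T, c = algebraMap ℚ (QS T) r + (nT T : QS T) ^ N * d := by
  obtain ⟨k, hk⟩ := exists_pow_mul_mem_ZS T c
  obtain ⟨r, hr⟩ := exists_nat_approx T _ hk (N + k)
  obtain ⟨d, hd, hd'⟩ := exists_eq_pow_mul_of_norm_le T (N + k)
    ((nT T : QS T) ^ k * c - (r : QS T)) (fun q => by
      rw [toPi_sub, toPi_natCast]
      exact hr q)
  refine ⟨(r : ℚ) / ((nT T : ℚ) ^ k), d, hd, QS_ext T fun q => ?_⟩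
  have h1 := congrArg (fun x => QS.toPi T x q) hd'
  simp only [toPi_sub, toPi_mul, toPi_pow, toPi_natCast] at h1
  rw [toPi_add, toPi_algebraMap, toPi_mul, toPi_pow, toPi_natCast]
  have hn0 : ((nT T : ℕ) : Qq q.1) ≠ 0 := nT_cast_ne_zero T q
  have hcast : (((r : ℚ) / ((nT T : ℚ) ^ k) : ℚ) : Qq q.1) =
      (r : Qq q.1) / ((nT T : ℕ) : Qq q.1) ^ k := by
    push_cast; rfl
  rw [hcast]
  field_simp
  rw [pow_add] at h1
  linear_combination h1

end PartA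

/-! ## Part B : the integral model `RS` is integral over `ℤ_T`; `n` lies in its radical -/

section PartB

lemma isIntegralElem_of_isIntegral_int {A B : Type} [CommRing A] [CommRing B] (f : A →+* B)
    {z : B} (hz : IsIntegral ℤ z) : f.IsIntegralElem z := by
  obtain ⟨P, hP, hPz⟩ := hz
  refine ⟨P.map (Int.castRingHom A), hP.map _, ?_⟩
  rw [Polynomial.eval₂_map]
  have : f.comp (Int.castRingHom A) = algebraMap ℤ B := RingHom.ext_int _ _
  rw [this]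
  exact hPz

variable (T : Finset Nat.Primes) (L : Type) [Field L] [NumberField L]

lemma tmul_one_mem_RS (a : 𝓞 L) : ((a : L) ⊗ₜ[ℚ] (1 : QS T) : AS T L) ∈ RS T L :=
  Subring.subset_closure (Or.inl ⟨a, rfl⟩)

lemma one_tmul_mem_RS {c : QS T} (hc : c ∈ ZS T) : ((1 : L) ⊗ₜ[ℚ] c : AS T L) ∈ RS T L :=
  Subring.subset_closure (Or.inr ⟨c, hc, rfl⟩)

lemma tmul_mem_RS (a : 𝓞 L) {c : QS T} (hc : c ∈ ZS T) :
    ((a : L) ⊗ₜ[ℚ] c : AS T L) ∈ RS T L := by
  have := (RS T L).mul_mem (tmul_one_mem_RS T L a) (one_tmul_mem_RS T L hc)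
  rwa [Algebra.TensorProduct.tmul_mul_tmul, mul_one, one_mul] at this

/-- `ℤ_T → RS`, `c ↦ 1 ⊗ c`. -/
def zsToRs : ZS T →+* RS T L :=
  ((asIncl T L : QS T →ₐ[ℚ] AS T L) : QS T →+* AS T L).restrict (ZS T) (RS T L)
    (fun _ hc => one_tmul_mem_RS T L hc)

lemma coe_zsToRs (c : ZS T) : ((zsToRs T L c : RS T L) : AS T L) = (1 : L) ⊗ₜ[ℚ] (c : QS T) :=
  rfl

lemma zsToRs_isIntegral : (zsToRs T L).IsIntegral := by
  rintro ⟨z, hz⟩
  induction hz using Subring.closure_induction with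
  | mem x hx =>
    rcases hx with ⟨a, rfl⟩ | ⟨c, hc, rfl⟩
    · apply isIntegralElem_of_isIntegral_int
      have h1 : IsIntegral ℤ ((a : L) ⊗ₜ[ℚ] (1 : QS T) : AS T L) :=
        map_isIntegral_int ((asDiag T L : L →ₐ[ℚ] AS T L) : L →+* AS T L)
          (NumberField.RingOfIntegers.isIntegral_coe a)
      exact (isIntegral_algHom_iff ((RS T L).subtype.toIntAlgHom)
        Subtype.val_injective).1 h1
    · exact (zsToRs T L).isIntegralElem_map (x := ⟨c, hc⟩)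
  | zero => exact RingHom.isIntegralElem_zero _
  | one => exact RingHom.isIntegralElem_one _
  | add x y hx hy ihx ihy => exact RingHom.IsIntegralElem.add _ ihx ihy
  | neg x hx ihx => exact RingHom.IsIntegralElem.neg _ ihx
  | mul x y hx hy ihx ihy => exact RingHom.IsIntegralElem.mul _ ihx ihy

/-- `1 + n z` is a unit of `RS` for every `z ∈ RS`. -/
lemma isUnit_one_add_nT_mul (z : RS T L) : IsUnit (1 + (nT T : RS T L) * z) := by
  by_contra hnu
  obtain ⟨M, hM, hmem⟩ := exists_max_ideal_of_mem_nonunits (mem_nonunits_iff.2 hnu)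
  haveI := hM
  have hM' := Ideal.isMaximal_comap_of_isIntegral_of_isMaximal' (zsToRs T L)
    (zsToRs_isIntegral T L) M
  have hn : (nT T : ZS T) ∈ M.comap (zsToRs T L) := by
    have hj : (nT T : ZS T) ∈ Ideal.jacobson (⊥ : Ideal (ZS T)) :=
      Ideal.mem_jacobson_bot.2 (fun y => isUnit_nT_mul_add_one T y)
    exact (Ideal.mem_sInf.1 hj) ⟨bot_le, hM'⟩
  rw [Ideal.mem_comap, map_natCast] at hn
  have h1 : (1 : RS T L) ∈ M := by
    have := M.sub_mem hmem (M.mul_mem_right z hn)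
    simpa using this
  exact hM.ne_top ((Ideal.eq_top_iff_one M).2 h1)

end PartB

/-! ## Part C : `L ⊗ 1` is dense in `L ⊗ ℚ_T` for the `n`-adic topology of the integral model -/

section PartC

variable (T : Finset Nat.Primes) (L : Type) [Field L] [NumberField L]

/-- Every pure tensor is `a ⊗ c'` with `a` an algebraic integer. -/
lemma exists_tmul_eq (x : L) (c : QS T) :
    ∃ (a : 𝓞 L) (c' : QS T), (x ⊗ₜ[ℚ] c : AS T L) = (a : L) ⊗ₜ[ℚ] c' := by
  obtain ⟨m, hm, hint⟩ := ((IsFractionRing.isAlgebraic_iff ℤ ℚ L).2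
    (Algebra.IsAlgebraic.isAlgebraic (R := ℚ) x)).exists_integral_multiple
  refine ⟨⟨m • x, hint⟩, (m : ℚ)⁻¹ • c, ?_⟩
  have h1 : (m • x : L) = (m : ℚ) • x := by
    rw [Int.cast_smul_eq_zsmul]
  show (x ⊗ₜ[ℚ] c : AS T L) = (m • x) ⊗ₜ[ℚ] ((m : ℚ)⁻¹ • c)
  rw [h1, TensorProduct.smul_tmul, smul_smul, mul_inv_cancel₀ (Int.cast_ne_zero.2 hm), one_smul]

lemma natCast_pow_eq (k : ℕ) :
    ((nT T : ℕ) : AS T L) ^ k = (1 : L) ⊗ₜ[ℚ] ((nT T : QS T) ^ k) := by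
  rw [← Algebra.TensorProduct.includeRight_apply, map_pow, map_natCast]

lemma natCast_pow_mul_tmul (k : ℕ) (x : L) (c : QS T) :
    ((nT T : ℕ) : AS T L) ^ k * (x ⊗ₜ[ℚ] c) = x ⊗ₜ[ℚ] ((nT T : QS T) ^ k * c) := by
  rw [natCast_pow_eq, Algebra.TensorProduct.tmul_mul_tmul, one_mul]

lemma natCast_pow_mem_RS (k : ℕ) : ((nT T : ℕ) : AS T L) ^ k ∈ RS T L :=
  pow_mem (natCast_mem _ _) _

/-- Bounded denominators in `L ⊗ ℚ_T`. -/
lemma exists_pow_mul_mem_RS (z : AS T L) :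
    ∃ k : ℕ, ((nT T : ℕ) : AS T L) ^ k * z ∈ RS T L := by
  induction z using TensorProduct.induction_on with
  | zero => exact ⟨0, by rw [mul_zero]; exact (RS T L).zero_mem⟩
  | tmul x c =>
    obtain ⟨a, c', h⟩ := exists_tmul_eq T L x c
    obtain ⟨k, hk⟩ := exists_pow_mul_mem_ZS T c'
    refine ⟨k, ?_⟩
    rw [h, natCast_pow_mul_tmul]
    exact tmul_mem_RS T L a hk
  | add z₁ z₂ h₁ h₂ =>
    obtain ⟨k₁, hk₁⟩ := h₁
    obtain ⟨k₂, hk₂⟩ := h₂
    refine ⟨k₁ + k₂, ?_⟩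
    have : ((nT T : ℕ) : AS T L) ^ (k₁ + k₂) * (z₁ + z₂) =
        ((nT T : ℕ) : AS T L) ^ k₂ * (((nT T : ℕ) : AS T L) ^ k₁ * z₁) +
        ((nT T : ℕ) : AS T L) ^ k₁ * (((nT T : ℕ) : AS T L) ^ k₂ * z₂) := by ring
    rw [this]
    exact (RS T L).add_mem ((RS T L).mul_mem (natCast_pow_mem_RS T L k₂) hk₁)
      ((RS T L).mul_mem (natCast_pow_mem_RS T L k₁) hk₂)

/-- Density of `L ⊗ 1`. -/
lemma exists_approx (z : AS T L) (N : ℕ) :
    ∃ y : L, ∃ z₀ ∈ RS T L,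
      z = y ⊗ₜ[ℚ] (1 : QS T) + ((nT T : ℕ) : AS T L) ^ N * z₀ := by
  induction z using TensorProduct.induction_on with
  | zero => exact ⟨0, 0, (RS T L).zero_mem, by rw [TensorProduct.zero_tmul, mul_zero, add_zero]⟩
  | tmul x c =>
    obtain ⟨a, c', h⟩ := exists_tmul_eq T L x c
    obtain ⟨r, d, hd, hc'⟩ := exists_rat_approx T c' N
    refine ⟨r • (a : L), (a : L) ⊗ₜ[ℚ] d, tmul_mem_RS T L a hd, ?_⟩
    rw [h, natCast_pow_mul_tmul]
    conv_lhs => rw [hc']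
    rw [TensorProduct.tmul_add]
    congr 1
    rw [Algebra.algebraMap_eq_smul_one, TensorProduct.tmul_smul, TensorProduct.smul_tmul']
  | add z₁ z₂ h₁ h₂ =>
    obtain ⟨y₁, w₁, hw₁, e₁⟩ := h₁
    obtain ⟨y₂, w₂, hw₂, e₂⟩ := h₂
    refine ⟨y₁ + y₂, w₁ + w₂, (RS T L).add_mem hw₁ hw₂, ?_⟩
    conv_lhs => rw [e₁, e₂]
    rw [TensorProduct.add_tmul]
    ring

end PartC

/-! ## Part D : weak approximation -/

section PartD

/-- **SIND-APPROX** : `J_T(L) = Lˣ · U_T(L)`. -/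
theorem approx : ApproxSpec := by
  intro T L _ _ j
  rcases subsingleton_or_nontrivial (AS T L) with hsub | hnt
  · refine ⟨0, j, ⟨?_, ?_⟩, by rw [map_zero, zero_add]⟩
    · rw [Subsingleton.elim ((j.toMul : (AS T L)ˣ) : AS T L) 0]
      exact (RS T L).zero_mem
    · rw [Subsingleton.elim (((j.toMul)⁻¹ : (AS T L)ˣ) : AS T L) 0]
      exact (RS T L).zero_mem
  · obtain ⟨k, hk⟩ := exists_pow_mul_mem_RS T L (((j.toMul)⁻¹ : (AS T L)ˣ) : AS T L)
    obtain ⟨y, z₀, hz₀, hy⟩ := exists_approx T L ((j.toMul : (AS T L)ˣ) : AS T L) (k + 1)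
    obtain ⟨w, hw⟩ := isUnit_one_add_nT_mul T L
      (⟨-(((nT T : ℕ) : AS T L) ^ k * (((j.toMul)⁻¹ : (AS T L)ˣ) : AS T L) * z₀),
        (RS T L).neg_mem ((RS T L).mul_mem hk hz₀)⟩ : RS T L)
    have hwval : ((w : RS T L) : AS T L) =
        1 + ((nT T : ℕ) : AS T L) *
          -(((nT T : ℕ) : AS T L) ^ k * (((j.toMul)⁻¹ : (AS T L)ˣ) : AS T L) * z₀) := by
      rw [hw]
      rfl
    have hJ : ((j.toMul : (AS T L)ˣ) : AS T L) * (((j.toMul)⁻¹ : (AS T L)ˣ) : AS T L) = 1 := by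
      rw [← Units.val_mul, mul_inv_cancel, Units.val_one]
    have hyw : (y ⊗ₜ[ℚ] (1 : QS T) : AS T L) =
        ((j.toMul : (AS T L)ˣ) : AS T L) * ((w : RS T L) : AS T L) := by
      rw [hwval]
      have e : (y ⊗ₜ[ℚ] (1 : QS T) : AS T L) = ((j.toMul : (AS T L)ˣ) : AS T L) -
          ((nT T : ℕ) : AS T L) ^ (k + 1) * z₀ := by
        rw [eq_sub_iff_add_eq]
        exact hy.symm
      rw [e]
      linear_combination (((nT T : ℕ) : AS T L) ^ (k + 1) * z₀) * hJ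
    have hwinv : ((w : RS T L) : AS T L) * (((w⁻¹ : (RS T L)ˣ) : RS T L) : AS T L) = 1 := by
      rw [← Subring.coe_mul, ← Units.val_mul, mul_inv_cancel, Units.val_one, Subring.coe_one]
    have hy0 : y ≠ 0 := by
      rintro rfl
      rw [TensorProduct.zero_tmul] at hyw
      have h1 : (1 : AS T L) = 0 := by
        calc (1 : AS T L) = (((j.toMul)⁻¹ : (AS T L)ˣ) : AS T L) *
              (((j.toMul : (AS T L)ˣ) : AS T L) * ((w : RS T L) : AS T L)) *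
              (((w⁻¹ : (RS T L)ˣ) : RS T L) : AS T L) := by
              rw [← mul_assoc, mul_comm (((j.toMul)⁻¹ : (AS T L)ˣ) : AS T L), hJ, one_mul, hwinv]
          _ = 0 := by rw [← hyw, mul_zero, zero_mul]
      exact one_ne_zero h1
    refine ⟨Additive.ofMul (Units.mk0 y hy0),
      Additive.ofMul (Units.map (RS T L).subtype.toMonoidHom w⁻¹), ⟨?_, ?_⟩, ?_⟩
    · exact ((w⁻¹ : (RS T L)ˣ) : RS T L).2
    · have : ((Units.map (RS T L).subtype.toMonoidHom w⁻¹)⁻¹ : (AS T L)ˣ) =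
          Units.map (RS T L).subtype.toMonoidHom w := by
        rw [← map_inv, inv_inv]
      show (((Units.map (RS T L).subtype.toMonoidHom w⁻¹)⁻¹ : (AS T L)ˣ) : AS T L) ∈ RS T L
      rw [this]
      exact (w : RS T L).2
    · apply Additive.toMul.injective
      apply Units.ext
      show ((j.toMul : (AS T L)ˣ) : AS T L) =
        (y ⊗ₜ[ℚ] (1 : QS T) : AS T L) * (((w⁻¹ : (RS T L)ˣ) : RS T L) : AS T L)
      rw [hyw, mul_assoc, hwinv, mul_one]

end PartD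

end Fermat.Agent.S55.G.SIndH237.H959
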