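/-
S55 (Poitou–Tate), layer G, leaf G-SIND (`SIndepSpec`, independence of `S`; REC (O5)) — ASSEMBLY.
Owner: helper237.  Interface of the sub-leaves: `SIndH237/Spec.lean`.

    sIndep_of : ApproxSpec → IntSpec → PrescribedOrdSpec → UnitsCohTrivSpec →
      T.TwinVanishingSpec → SIndepSpec

Contents (one file, to keep import closures small):
1. the splitting `L ⊗ ℚ_{S'} ≅ (L ⊗ ℚ_S) × (L ⊗ ℚ_T)`, `T = S' \ S`, and the bijection
   `(jRes, jRes_T) : J_{S'}(L) → J_S(L) × J_T(L)`;
2. the divisor map `δ_T : J_T(L) → Div^S(L)`, `δ_T (diag x + u) = ∑_{w | T} ord_w(x) [w]`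
   (from `ApproxSpec`, `IntSpec`);
3. `Φ (j, d) = (jRes j, divIncl d + δ_T (jRes_T j))`: equivariance, diagonal, surjectivity, kernel;
4. `π : C_{S'}(L) ⟶ C_S(L)`, `ι : U_T(L) ⟶ C_{S'}(L)` and the short exact sequence
   `0 → U_T(L) → C_{S'}(L) → C_S(L) → 0` in `Rep ℤ G`;
5. cohomology: `U_T(L)` is cohomologically trivial (`UnitsCohTrivSpec` + twin vanishing), so `π`
   is bijective on `Hⁿ(H, -)`, `n ≥ 1`, for all `H ≤ G`.
-/
import Fermat.Agent.S55.G.SIndH237.Spec
import Fermat.Agent.S55.H295.Basic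
import Fermat.Agent.S55.T.Spec

set_option autoImplicit false
set_option linter.unusedSectionVars false
set_option linter.style.haveILetI false

open scoped NumberField TensorProduct
open IsDedekindDomain CategoryTheory groupCohomology

noncomputable section

namespace Fermat.Agent.S55.G.SIndH237

open Fermat.Agent.S55.G

/-! # Part: Split -/

section SplitPart

variable {S S' : Finset Nat.Primes} (h : S ⊆ S')

/-- `T = S' \ S`. -/
abbrev sdiffT (S S' : Finset Nat.Primes) : Finset Nat.Primes := S' \ S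

lemma sdiffT_subset (S S' : Finset Nat.Primes) : sdiffT S S' ⊆ S' := Finset.sdiff_subset

/-- The pair of projections `ℚ_{S'} → ℚ_S × ℚ_T`. -/
def qsPair : QS S' →ₐ[ℚ] QS S × QS (sdiffT S S') :=
  AlgHom.prod (QS.res h) (QS.res (sdiffT_subset S S'))

lemma qsPair_injective : Function.Injective (qsPair h) := by
  intro x y hxy
  have h1 : QS.res h x = QS.res h y := congrArg Prod.fst hxy
  have h2 : QS.res (sdiffT_subset S S') x = QS.res (sdiffT_subset S S') y :=
    congrArg Prod.snd hxy
  apply (QS.toPi S').injective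
  funext q
  by_cases hq : q.1 ∈ S
  · have := congrArg (fun z => QS.toPi S z ⟨q.1, hq⟩) h1
    simpa using this
  · have hq' : q.1 ∈ sdiffT S S' := Finset.mem_sdiff.2 ⟨q.2, hq⟩
    have := congrArg (fun z => QS.toPi (sdiffT S S') z ⟨q.1, hq'⟩) h2
    simpa using this

lemma qsPair_surjective : Function.Surjective (qsPair h) := by
  classical
  rintro ⟨a, b⟩
  refine ⟨(QS.toPi S').symm (fun q =>
    if hq : q.1 ∈ S then QS.toPi S a ⟨q.1, hq⟩
    else QS.toPi (sdiffT S S') b ⟨q.1, Finset.mem_sdiff.2 ⟨q.2, hq⟩⟩), ?_⟩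
  refine Prod.ext ?_ ?_
  · apply (QS.toPi S).injective
    funext q
    change QS.toPi S (QS.res h _) q = _
    rw [QS.res_apply, AlgEquiv.apply_symm_apply]
    simp [q.2]
  · apply (QS.toPi (sdiffT S S')).injective
    funext q
    change QS.toPi (sdiffT S S') (QS.res (sdiffT_subset S S') _) q = _
    rw [QS.res_apply, AlgEquiv.apply_symm_apply]
    have hq : q.1 ∉ S := (Finset.mem_sdiff.1 q.2).2
    simp [hq]

/-- `ℚ_{S'} ≃ ℚ_S × ℚ_T`. -/
def qsSplit : QS S' ≃ₐ[ℚ] QS S × QS (sdiffT S S') :=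
  AlgEquiv.ofBijective (qsPair h) ⟨qsPair_injective h, qsPair_surjective h⟩

variable (L : Type) [Field L] [CharZero L]

/-- The pair of projections `L ⊗ ℚ_{S'} → (L ⊗ ℚ_S) × (L ⊗ ℚ_T)`. -/
def asPair : AS S' L →ₐ[ℚ] AS S L × AS (sdiffT S S') L :=
  AlgHom.prod (asRes h L) (asRes (sdiffT_subset S S') L)

/-- `L ⊗ ℚ_{S'} ≃ (L ⊗ ℚ_S) × (L ⊗ ℚ_T)`. -/
def asSplit : AS S' L ≃ₐ[ℚ] AS S L × AS (sdiffT S S') L :=
  (Algebra.TensorProduct.congr (AlgEquiv.refl : L ≃ₐ[ℚ] L) (qsSplit h)).trans
    (Algebra.TensorProduct.prodRight ℚ ℚ L (QS S) (QS (sdiffT S S')))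

lemma asSplit_eq_asPair (z : AS S' L) : asSplit h L z = asPair h L z := by
  induction z using TensorProduct.induction_on with
  | zero => simp
  | tmul a b =>
    change Algebra.TensorProduct.prodRight ℚ ℚ L (QS S) (QS (sdiffT S S'))
      (Algebra.TensorProduct.congr (AlgEquiv.refl : L ≃ₐ[ℚ] L) (qsSplit h) (a ⊗ₜ[ℚ] b)) = _
    rw [Algebra.TensorProduct.congr_apply, Algebra.TensorProduct.map_tmul,
      Algebra.TensorProduct.prodRight_tmul]
    refine Prod.ext ?_ ?_
    · change _ = asRes h L (a ⊗ₜ[ℚ] b)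
      rw [asRes_tmul]
      rfl
    · change _ = asRes (sdiffT_subset S S') L (a ⊗ₜ[ℚ] b)
      rw [asRes_tmul]
      rfl
  | add a b ha hb => rw [map_add, map_add, ha, hb]

lemma asPair_bijective : Function.Bijective (asPair h L) := by
  have : (asPair h L : AS S' L → _) = asSplit h L := by
    funext z; exact (asSplit_eq_asPair h L z).symm
  rw [this]
  exact (asSplit h L).bijective

/-- Injectivity of `(jRes, jRes_T)`. -/
lemma jRes_pair_injective {j j' : Additive (AS S' L)ˣ}
    (h1 : jRes h L j = jRes h L j')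
    (h2 : jRes (sdiffT_subset S S') L j = jRes (sdiffT_subset S S') L j') : j = j' := by
  apply Additive.toMul.injective
  apply Units.ext
  apply (asPair_bijective h L).1
  refine Prod.ext ?_ ?_
  · have := congrArg (fun z : Additive (AS S L)ˣ => ((z.toMul : (AS S L)ˣ) : AS S L)) h1
    simp only [coe_jRes_apply] at this
    exact this
  · have := congrArg
      (fun z : Additive (AS (sdiffT S S') L)ˣ =>
        ((z.toMul : (AS (sdiffT S S') L)ˣ) : AS (sdiffT S S') L)) h2
    simp only [coe_jRes_apply] at this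
    exact this

/-- Surjectivity of `(jRes, jRes_T)`. -/
lemma exists_jRes_pair (a : Additive (AS S L)ˣ) (b : Additive (AS (sdiffT S S') L)ˣ) :
    ∃ j : Additive (AS S' L)ˣ, jRes h L j = a ∧ jRes (sdiffT_subset S S') L j = b := by
  obtain ⟨z, hz⟩ := (asPair_bijective h L).2
    (((a.toMul : (AS S L)ˣ) : AS S L), ((b.toMul : (AS (sdiffT S S') L)ˣ) : AS (sdiffT S S') L))
  obtain ⟨z', hz'⟩ := (asPair_bijective h L).2
    ((((a.toMul)⁻¹ : (AS S L)ˣ) : AS S L),
      (((b.toMul)⁻¹ : (AS (sdiffT S S') L)ˣ) : AS (sdiffT S S') L))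
  have hzz' : z * z' = 1 := by
    apply (asPair_bijective h L).1
    rw [map_mul, hz, hz', map_one]
    refine Prod.ext ?_ ?_
    · simp
    · simp
  have hz'z : z' * z = 1 := by rw [mul_comm]; exact hzz'
  refine ⟨Additive.ofMul ⟨z, z', hzz', hz'z⟩, ?_, ?_⟩
  · apply Additive.toMul.injective
    apply Units.ext
    rw [coe_jRes_apply]
    exact congrArg Prod.fst hz
  · apply Additive.toMul.injective
    apply Units.ext
    rw [coe_jRes_apply]
    exact congrArg Prod.snd hz

end SplitPart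

/-! # Part: Delta -/

section DeltaPart

variable (S T : Finset Nat.Primes) (G L : Type) [Group G] [Field L] [NumberField L]
  [MulSemiringAction G L]

/-! ## The `T`-part of the divisor of `x ∈ Lˣ` -/

/-- The part of the divisor of `x` (as an element of `Div^S(L)`) supported above `T`. -/
def ordAbove : Additive Lˣ →+ (PrimeOut S L →₀ ℤ) where
  toFun x := by
    classical
    exact (ordHom S L x).filter (fun w => IsAbove T L w.1)
  map_zero' := by
    classical
    rw [map_zero]
    exact Finsupp.filter_zero _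
  map_add' x y := by
    classical
    simp only [map_add, Finsupp.filter_add]

lemma ordAbove_apply (x : Additive Lˣ) (w : PrimeOut S L) :
    ordAbove S T L x w = by
      classical
      exact if IsAbove T L w.1 then ordAt w.1 x else 0 := by
  classical
  change ((ordHom S L x).filter (fun w => IsAbove T L w.1)) w = _
  rw [Finsupp.filter_apply]
  rfl

lemma ordAbove_apply_of_isAbove (x : Additive Lˣ) (w : PrimeOut S L) (hw : IsAbove T L w.1) :
    ordAbove S T L x w = ordAt w.1 x := by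
  classical
  rw [ordAbove_apply, if_pos hw]

lemma ordAbove_apply_of_not_isAbove (x : Additive Lˣ) (w : PrimeOut S L)
    (hw : ¬ IsAbove T L w.1) : ordAbove S T L x w = 0 := by
  classical
  rw [ordAbove_apply, if_neg hw]

lemma ordAbove_eq_zero_of_forall (x : Additive Lˣ)
    (hx : ∀ w : HeightOneSpectrum (𝓞 L), IsAbove T L w → ordAt w x = 0) :
    ordAbove S T L x = 0 := by
  classical
  ext w
  by_cases hw : IsAbove T L w.1
  · rw [ordAbove_apply_of_isAbove S T L x w hw, hx w.1 hw]; rfl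
  · rw [ordAbove_apply_of_not_isAbove S T L x w hw]; rfl

/-- Equivariance of `ordAbove`. -/
lemma ordAbove_equivariant (g : G) (x : Additive Lˣ) :
    ordAbove S T L (lRepr G L g x) = divRepr S G L g (ordAbove S T L x) := by
  classical
  ext w
  have hw : w = primeOutMap S G L g (primeOutMap S G L g⁻¹ w) := by
    rw [← primeOutMap_mul, mul_inv_cancel, primeOutMap_one]
  set w' := primeOutMap S G L g⁻¹ w with hw'
  rw [hw, divRepr_apply_apply]
  have hiff : IsAbove T L (primeOutMap S G L g w').1 ↔ IsAbove T L w'.1 := by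
    rw [primeOutMap_val]
    exact isAbove_primeSMul_iff T G g w'.1
  by_cases hab : IsAbove T L w'.1
  · rw [ordAbove_apply_of_isAbove S T L _ _ (hiff.2 hab),
      ordAbove_apply_of_isAbove S T L _ _ hab, primeOutMap_val, ordAt_primeSMul]
  · rw [ordAbove_apply_of_not_isAbove S T L _ _ (fun hh => hab (hiff.1 hh)),
      ordAbove_apply_of_not_isAbove S T L _ _ hab]

/-! ## The map `δ_T` -/

section Delta

variable (hA : ApproxSpec) (hI : IntSpec)

/-- Auxiliary: the underlying function of `δ_T`. -/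
def deltaFun (hA : ApproxSpec) (j : Additive (AS T L)ˣ) : PrimeOut S L →₀ ℤ :=
  ordAbove S T L (Classical.choose (hA T L j))

include hI in
/-- Independence of the choice: `δ_T (diag x + u) = ord_T x`. -/
lemma deltaFun_eq {j : Additive (AS T L)ˣ} {x : Additive Lˣ} {u : Additive (AS T L)ˣ}
    (hu : u ∈ UT T L) (hj : j = unitsDiag T L x + u) :
    deltaFun S T L hA j = ordAbove S T L x := by
  obtain ⟨u₀, hu₀, hj₀⟩ := Classical.choose_spec (hA T L j)
  set x₀ := Classical.choose (hA T L j) with hx₀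
  have hdiff : unitsDiag T L (x - x₀) ∈ UT T L := by
    have h1 : unitsDiag T L (x - x₀) = u₀ - u := by
      rw [map_sub]
      have : unitsDiag T L x + u = unitsDiag T L x₀ + u₀ := by rw [← hj, ← hj₀]
      rw [sub_eq_sub_iff_add_eq_add, this, add_comm]
    rw [h1]
    exact (UT T L).sub_mem hu₀ hu
  have hz := ordAbove_eq_zero_of_forall S T L (x - x₀) ((hI T L (x - x₀)).1 hdiff)
  rw [map_sub, sub_eq_zero] at hz
  exact hz.symm

/-- The divisor map `δ_T : J_T(L) → Div^S(L)`. -/
def deltaT : Additive (AS T L)ˣ →+ (PrimeOut S L →₀ ℤ) where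
  toFun := deltaFun S T L hA
  map_zero' := by
    have := deltaFun_eq S T L hA hI (j := 0) (x := 0) (u := 0) (UT T L).zero_mem (by simp)
    rw [this, map_zero]
  map_add' j j' := by
    obtain ⟨u, hu, hj⟩ := Classical.choose_spec (hA T L j)
    obtain ⟨u', hu', hj'⟩ := Classical.choose_spec (hA T L j')
    set x := Classical.choose (hA T L j)
    set x' := Classical.choose (hA T L j')
    have h1 : j + j' = unitsDiag T L (x + x') + (u + u') := by
      rw [map_add]
      nth_rewrite 1 [hj]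
      nth_rewrite 1 [hj']
      abel
    rw [deltaFun_eq S T L hA hI ((UT T L).add_mem hu hu') h1, map_add]
    rfl

lemma deltaT_eq {j : Additive (AS T L)ˣ} {x : Additive Lˣ} {u : Additive (AS T L)ˣ}
    (hu : u ∈ UT T L) (hj : j = unitsDiag T L x + u) :
    deltaT S T L hA hI j = ordAbove S T L x :=
  deltaFun_eq S T L hA hI hu hj

lemma deltaT_unitsDiag (x : Additive Lˣ) :
    deltaT S T L hA hI (unitsDiag T L x) = ordAbove S T L x :=
  deltaT_eq S T L hA hI (UT T L).zero_mem (by simp)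

lemma deltaT_of_mem_UT {u : Additive (AS T L)ˣ} (hu : u ∈ UT T L) :
    deltaT S T L hA hI u = 0 := by
  rw [deltaT_eq S T L hA hI hu (x := 0) (by simp), map_zero]

/-- The support of `δ_T j` consists of primes above `T`. -/
lemma deltaT_apply_of_not_isAbove (j : Additive (AS T L)ˣ) (w : PrimeOut S L)
    (hw : ¬ IsAbove T L w.1) : deltaT S T L hA hI j w = 0 := by
  obtain ⟨x, u, hu, hj⟩ := hA T L j
  rw [deltaT_eq S T L hA hI hu hj]
  exact ordAbove_apply_of_not_isAbove S T L x w hw

/-- Kernel of `δ_T`: if no prime above `T` lies above `S`, then `ker δ_T = U_T`. -/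
lemma mem_UT_of_deltaT_eq_zero
    (hdisj : ∀ w : HeightOneSpectrum (𝓞 L), IsAbove T L w → ¬ IsAbove S L w)
    {j : Additive (AS T L)ˣ} (hj0 : deltaT S T L hA hI j = 0) : j ∈ UT T L := by
  obtain ⟨x, u, hu, hj⟩ := hA T L j
  rw [deltaT_eq S T L hA hI hu hj] at hj0
  have hx : unitsDiag T L x ∈ UT T L := by
    refine (hI T L x).2 fun w hw => ?_
    let w' : PrimeOut S L := ⟨w, hdisj w hw⟩
    have h1 : ordAbove S T L x w' = 0 := by rw [hj0]; rfl
    have h2 : ordAbove S T L x w' = ordAt w x := ordAbove_apply_of_isAbove S T L x w' hw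
    rw [← h2, h1]
  rw [hj]
  exact (UT T L).add_mem hx hu

include hI in
/-- Equivariance of `δ_T`. -/
lemma deltaT_equivariant (g : G) (j : Additive (AS T L)ˣ) :
    deltaT S T L hA hI (jRepr G T L g j) = divRepr S G L g (deltaT S T L hA hI j) := by
  obtain ⟨x, u, hu, hj⟩ := hA T L j
  have hgu : jRepr G T L g u ∈ UT T L := UT_stable T G L g hu
  have hgj : jRepr G T L g j = unitsDiag T L (lRepr G L g x) + jRepr G T L g u := by
    rw [hj, map_add, unitsDiag_equivariant]
  rw [deltaT_eq S T L hA hI hgu hgj, deltaT_eq S T L hA hI hu hj, ordAbove_equivariant]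

/-- Surjectivity of `δ_T` onto the divisors supported above `T`. -/
lemma exists_deltaT_eq (hP : PrescribedOrdSpec) (d : PrimeOut S L →₀ ℤ)
    (hd : ∀ w, d w ≠ 0 → IsAbove T L w.1) :
    ∃ j : Additive (AS T L)ˣ, deltaT S T L hA hI j = d := by
  classical
  let d' : HeightOneSpectrum (𝓞 L) →₀ ℤ := d.mapDomain Subtype.val
  have hd'val : ∀ w : PrimeOut S L, d' w.1 = d w := fun w =>
    Finsupp.mapDomain_apply Subtype.val_injective d w
  have hd' : ∀ w, d' w ≠ 0 → IsAbove T L w := by
    intro w hw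
    have hmem : w ∈ (d.mapDomain Subtype.val).support := Finsupp.mem_support_iff.2 hw
    have := Finsupp.mapDomain_support hmem
    obtain ⟨w₀, hw₀, rfl⟩ := Finset.mem_image.1 this
    exact hd w₀ (Finsupp.mem_support_iff.1 hw₀)
  obtain ⟨x, hx⟩ := hP T L d' hd'
  refine ⟨unitsDiag T L x, ?_⟩
  rw [deltaT_unitsDiag]
  ext w
  by_cases hw : IsAbove T L w.1
  · rw [ordAbove_apply_of_isAbove S T L x w hw, hx w.1 hw, hd'val]
  · rw [ordAbove_apply_of_not_isAbove S T L x w hw]
    by_contra hne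
    exact hw (hd w (Ne.symm hne))

end Delta

end DeltaPart

/-! # Part: Phi -/

section PhiPart

variable {S S' : Finset Nat.Primes} (h : S ⊆ S') (G L : Type) [Group G] [Field L]
  [NumberField L] [MulSemiringAction G L]

/-! ## Primes above `S`, `S'` and `T = S' \ S` -/

/-- A prime of `L` lies above at most one rational prime. -/
lemma eq_of_mem_of_mem (w : HeightOneSpectrum (𝓞 L)) {q q' : Nat.Primes}
    (hq : ((q : ℕ) : 𝓞 L) ∈ w.asIdeal) (hq' : ((q' : ℕ) : 𝓞 L) ∈ w.asIdeal) : q = q' := by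
  by_contra hne
  have hne' : (q : ℕ) ≠ (q' : ℕ) := fun hh => hne (Subtype.ext hh)
  have hcop : Nat.Coprime (q : ℕ) (q' : ℕ) := (Nat.coprime_primes q.2 q'.2).2 hne'
  have hc : IsCoprime ((q : ℕ) : ℤ) ((q' : ℕ) : ℤ) := Nat.isCoprime_iff_coprime.2 hcop
  obtain ⟨a, b, hab⟩ := hc
  have h1 : ((a : 𝓞 L)) * ((q : ℕ) : 𝓞 L) + (b : 𝓞 L) * ((q' : ℕ) : 𝓞 L) = 1 := by
    have := congrArg (fun z : ℤ => (z : 𝓞 L)) hab
    simpa using this
  have h2 : (1 : 𝓞 L) ∈ w.asIdeal := by
    rw [← h1]
    exact w.asIdeal.add_mem (w.asIdeal.mul_mem_left _ hq) (w.asIdeal.mul_mem_left _ hq')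
  exact w.isPrime.ne_top ((Ideal.eq_top_iff_one _).2 h2)

/-- No prime above `T = S' \ S` lies above `S`. -/
lemma not_isAbove_of_isAbove_sdiff (w : HeightOneSpectrum (𝓞 L))
    (hw : IsAbove (sdiffT S S') L w) : ¬ IsAbove S L w := by
  rintro ⟨q', hq', hmem'⟩
  obtain ⟨q, hq, hmem⟩ := hw
  have := eq_of_mem_of_mem L w hmem hmem'
  subst this
  exact (Finset.mem_sdiff.1 hq).2 hq'

include h in
lemma isAbove_iff_or (w : HeightOneSpectrum (𝓞 L)) :
    IsAbove S' L w ↔ IsAbove S L w ∨ IsAbove (sdiffT S S') L w := by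
  constructor
  · rintro ⟨q, hq, hmem⟩
    by_cases hqS : q ∈ S
    · exact Or.inl ⟨q, hqS, hmem⟩
    · exact Or.inr ⟨q, Finset.mem_sdiff.2 ⟨hq, hqS⟩, hmem⟩
  · rintro (⟨q, hq, hmem⟩ | ⟨q, hq, hmem⟩)
    · exact ⟨q, h hq, hmem⟩
    · exact ⟨q, (Finset.mem_sdiff.1 hq).1, hmem⟩

include h in
/-- For a prime not above `S`: above `S'` iff above `T`. -/
lemma isAbove_iff_of_primeOut (w : PrimeOut S L) :
    IsAbove S' L w.1 ↔ IsAbove (sdiffT S S') L w.1 := by
  rw [isAbove_iff_or h L w.1]
  constructor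
  · rintro (h1 | h1)
    · exact absurd h1 w.2
    · exact h1
  · exact Or.inr

/-! ## `divIncl` pointwise -/

lemma divIncl_apply_of_isAbove (d : PrimeOut S' L →₀ ℤ) (w : PrimeOut S L)
    (hw : IsAbove S' L w.1) : divIncl h L d w = 0 := by
  classical
  refine Finsupp.mapDomain_of_notMem_range _ _ ?_
  rintro ⟨w', rfl⟩
  exact w'.2 hw

lemma divIncl_apply_of_not_isAbove (d : PrimeOut S' L →₀ ℤ) (w : PrimeOut S L)
    (hw : ¬ IsAbove S' L w.1) : divIncl h L d w = d ⟨w.1, hw⟩ :=
  divIncl_apply h L d ⟨w.1, hw⟩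

/-- Every divisor prime to `S` with support outside `S'` comes from `Div^{S'}`. -/
lemma exists_divIncl_eq (e : PrimeOut S L →₀ ℤ) (he : ∀ w, e w ≠ 0 → ¬ IsAbove S' L w.1) :
    ∃ d : PrimeOut S' L →₀ ℤ, divIncl h L d = e := by
  classical
  refine ⟨e.comapDomain (primeOutIncl h L) (primeOutIncl_injective h L).injOn, ?_⟩
  refine Finsupp.mapDomain_comapDomain _ (primeOutIncl_injective h L) e ?_
  intro w hw
  have hw' : e w ≠ 0 := Finsupp.mem_support_iff.1 hw
  exact ⟨⟨w.1, he w hw'⟩, rfl⟩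

/-- The divisor of `x` prime to `S` is the sum of its part prime to `S'` and its part above
`T = S' \ S`. -/
lemma ordHom_split (x : Additive Lˣ) :
    divIncl h L (ordHom S' L x) + ordAbove S (sdiffT S S') L x = ordHom S L x := by
  ext w
  rw [Finsupp.add_apply]
  by_cases hw : IsAbove (sdiffT S S') L w.1
  · rw [divIncl_apply_of_isAbove h L _ w ((isAbove_iff_of_primeOut h L w).2 hw),
      ordAbove_apply_of_isAbove S _ L x w hw, zero_add]
    rfl
  · have hw' : ¬ IsAbove S' L w.1 := fun hh => hw ((isAbove_iff_of_primeOut h L w).1 hh)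
    rw [divIncl_apply_of_not_isAbove h L _ w hw',
      ordAbove_apply_of_not_isAbove S _ L x w hw, add_zero]
    rfl

/-! ## The map `Φ` -/

section Phi

variable (hA : ApproxSpec) (hI : IntSpec)

/-- `Φ (j, d) = (jRes j, divIncl d + δ_T (jRes_T j))`. -/
def PhiHom : JD S' L →+ JD S L :=
  ((jRes h L).comp (AddMonoidHom.fst _ _)).prod
    (((divIncl h L).comp (AddMonoidHom.snd _ _)) +
      ((deltaT S (sdiffT S S') L hA hI).comp
        ((jRes (sdiffT_subset S S') L).comp (AddMonoidHom.fst _ _))))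

lemma PhiHom_apply (y : JD S' L) :
    PhiHom h L hA hI y = (jRes h L y.1,
      divIncl h L y.2 + deltaT S (sdiffT S S') L hA hI (jRes (sdiffT_subset S S') L y.1)) := rfl

lemma PhiHom_fst (y : JD S' L) : (PhiHom h L hA hI y).1 = jRes h L y.1 := rfl

lemma PhiHom_snd (y : JD S' L) : (PhiHom h L hA hI y).2 =
    divIncl h L y.2 + deltaT S (sdiffT S S') L hA hI (jRes (sdiffT_subset S S') L y.1) := rfl

lemma jdRepr_apply (S : Finset Nat.Primes) (g : G) (y : JD S L) :
    jdRepr S G L g y = (jRepr G S L g y.1, divRepr S G L g y.2) := rfl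

/-- (1) `Φ` is equivariant. -/
lemma PhiHom_equivariant (g : G) (y : JD S' L) :
    PhiHom h L hA hI (jdRepr S' G L g y) = jdRepr S G L g (PhiHom h L hA hI y) := by
  rw [jdRepr_apply, jdRepr_apply, PhiHom_apply, PhiHom_apply]
  refine Prod.ext ?_ ?_
  · exact jRes_equivariant h L G g y.1
  · change divIncl h L (divRepr S' G L g y.2) +
        deltaT S (sdiffT S S') L hA hI (jRes (sdiffT_subset S S') L (jRepr G S' L g y.1)) =
      divRepr S G L g (divIncl h L y.2 +
        deltaT S (sdiffT S S') L hA hI (jRes (sdiffT_subset S S') L y.1))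
    rw [divIncl_equivariant, jRes_equivariant, deltaT_equivariant S _ G L hA hI, map_add]

/-- (2) `Φ` is compatible with the diagonal embeddings of `Lˣ`. -/
lemma PhiHom_diagHom (x : Additive Lˣ) :
    PhiHom h L hA hI (diagHom S' L x) = diagHom S L x := by
  rw [PhiHom_apply]
  refine Prod.ext ?_ ?_
  · exact jRes_unitsDiag h L x
  · change divIncl h L (ordHom S' L x) +
        deltaT S (sdiffT S S') L hA hI (jRes (sdiffT_subset S S') L (unitsDiag S' L x)) =
      ordHom S L x
    rw [jRes_unitsDiag, deltaT_unitsDiag, ordHom_split]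

/-- (4) `Φ` is `divIncl` on `Div^{S'}`. -/
lemma PhiHom_inr (d : PrimeOut S' L →₀ ℤ) :
    PhiHom h L hA hI (0, d) = (0, divIncl h L d) := by
  rw [PhiHom_apply]
  refine Prod.ext ?_ ?_
  · exact map_zero _
  · change divIncl h L d + deltaT S (sdiffT S S') L hA hI (jRes (sdiffT_subset S S') L 0) = _
    rw [map_zero, map_zero, add_zero]

/-- (6) `Φ` is surjective. -/
lemma PhiHom_surjective (hP : PrescribedOrdSpec) : Function.Surjective (PhiHom h L hA hI) := by
  classical
  rintro ⟨a, e⟩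
  -- the part of `e` above `T`
  let e₁ : PrimeOut S L →₀ ℤ := e.filter (fun w => IsAbove (sdiffT S S') L w.1)
  let e₂ : PrimeOut S L →₀ ℤ := e.filter (fun w => ¬ IsAbove (sdiffT S S') L w.1)
  have he : e₁ + e₂ = e := Finsupp.filter_add_filter_not e _
  obtain ⟨b, hb⟩ := exists_deltaT_eq S (sdiffT S S') L hA hI hP e₁ (by
    intro w hw
    by_contra hcon
    exact hw (Finsupp.filter_apply_neg _ _ hcon))
  obtain ⟨d, hd⟩ := exists_divIncl_eq h L e₂ (by
    intro w hw hab
    have h1 : IsAbove (sdiffT S S') L w.1 := (isAbove_iff_of_primeOut h L w).1 hab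
    exact hw (Finsupp.filter_apply_neg _ _ (not_not.2 h1)))
  obtain ⟨j, hj1, hj2⟩ := exists_jRes_pair h L a b
  refine ⟨(j, d), ?_⟩
  rw [PhiHom_apply]
  refine Prod.ext hj1 ?_
  change divIncl h L d + deltaT S (sdiffT S S') L hA hI (jRes (sdiffT_subset S S') L j) = e
  rw [hj2, hb, hd, add_comm, he]

/-- Kernel of `Φ`: `Φ (j, d) = 0` iff `d = 0`, `jRes j = 0` and `jRes_T j ∈ U_T`. -/
lemma PhiHom_eq_zero {y : JD S' L} (hy : PhiHom h L hA hI y = 0) :
    y.2 = 0 ∧ jRes h L y.1 = 0 ∧ jRes (sdiffT_subset S S') L y.1 ∈ UT (sdiffT S S') L := by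
  have h1 : jRes h L y.1 = 0 := congrArg Prod.fst hy
  have h2 : divIncl h L y.2 +
      deltaT S (sdiffT S S') L hA hI (jRes (sdiffT_subset S S') L y.1) = 0 :=
    congrArg Prod.snd hy
  have hd : y.2 = 0 := by
    ext w'
    have h3 := DFunLike.congr_fun h2 (primeOutIncl h L w')
    rw [Finsupp.add_apply, divIncl_apply] at h3
    have h4 : ¬ IsAbove (sdiffT S S') L (primeOutIncl h L w').1 := fun hh =>
      w'.2 ((isAbove_iff_of_primeOut h L (primeOutIncl h L w')).2 hh)
    rw [deltaT_apply_of_not_isAbove S _ L hA hI _ _ h4, add_zero] at h3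
    exact h3
  refine ⟨hd, h1, ?_⟩
  rw [hd, map_zero, zero_add] at h2
  exact mem_UT_of_deltaT_eq_zero S _ L hA hI
    (fun w hw => not_isAbove_of_isAbove_sdiff L w hw) h2

lemma PhiHom_of_mem_UT {j : Additive (AS S' L)ˣ} (hj1 : jRes h L j = 0)
    (hj2 : jRes (sdiffT_subset S S') L j ∈ UT (sdiffT S S') L) :
    PhiHom h L hA hI (j, 0) = 0 := by
  rw [PhiHom_apply]
  refine Prod.ext hj1 ?_
  change divIncl h L 0 + deltaT S (sdiffT S S') L hA hI (jRes (sdiffT_subset S S') L j) = 0
  rw [map_zero, zero_add, deltaT_of_mem_UT S _ L hA hI hj2]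

end Phi

/-! ## Unramified outside `S` implies unramified above `T` -/

lemma isUnramAbove_of_isUnramOut (hur : IsUnramOut S G L) :
    IsUnramAbove (sdiffT S S') G L := fun w hw g hg x =>
  hur w (not_isAbove_of_isAbove_sdiff L w hw) g hg x

end PhiPart

/-! # Part: Pi -/

section PiPart

variable {S S' : Finset Nat.Primes} (h : S ⊆ S') (G L : Type) [Group G] [Field L]
  [NumberField L] [MulSemiringAction G L] (hA : ApproxSpec) (hI : IntSpec)

/-! ## The morphism `π` -/

lemma principal_le_comap_Phi :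
    principal S' L ≤ (principal S L).comap (PhiHom h L hA hI).toIntLinearMap := by
  rintro _ ⟨x, rfl⟩
  exact ⟨x, (PhiHom_diagHom h L hA hI x).symm⟩

/-- The linear map `C_{S'}(L) → C_S(L)` induced by `Φ`. -/
def piLin : CS S' L →ₗ[ℤ] CS S L :=
  (principal S' L).mapQ (principal S L) (PhiHom h L hA hI).toIntLinearMap
    (principal_le_comap_Phi h L hA hI)

lemma piLin_mk (y : JD S' L) :
    piLin h L hA hI ((principal S' L).mkQ y) = (principal S L).mkQ (PhiHom h L hA hI y) := rfl

/-- The morphism `π : C_{S'}(L) ⟶ C_S(L)` in `Rep ℤ G`. -/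
def piHom : CRep S' G L ⟶ CRep S G L :=
  Rep.ofHom ⟨piLin h L hA hI, fun g => LinearMap.ext fun c => by
    obtain ⟨y, rfl⟩ := (principal S' L).mkQ_surjective c
    change piLin h L hA hI ((principal S' L).mkQ (jdRepr S' G L g y)) =
      (principal S L).mkQ (jdRepr S G L g (PhiHom h L hA hI y))
    rw [piLin_mk, PhiHom_equivariant]⟩

/-- (5) `π` is induced by `Φ`. -/
lemma piHom_mk (y : JD S' L) :
    (piHom h G L hA hI).hom ((principal S' L).mkQ y) =
      (principal S L).mkQ (PhiHom h L hA hI y) := rfl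

lemma piHom_surjective (hP : PrescribedOrdSpec) :
    Function.Surjective (piHom h G L hA hI).hom := by
  intro c
  obtain ⟨z, rfl⟩ := (principal S L).mkQ_surjective c
  obtain ⟨y, rfl⟩ := PhiHom_surjective h L hA hI hP z
  exact ⟨(principal S' L).mkQ y, rfl⟩

/-! ## The lift `J_T(L) → J_{S'}(L)` -/

/-- The idèle with `T`-component `u` and trivial `S`-component. -/
def liftT : Additive (AS (sdiffT S S') L)ˣ →+ Additive (AS S' L)ˣ where
  toFun u := Classical.choose (exists_jRes_pair h L 0 u)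
  map_zero' := by
    obtain ⟨h1, h2⟩ := Classical.choose_spec (exists_jRes_pair h L 0
      (0 : Additive (AS (sdiffT S S') L)ˣ))
    exact jRes_pair_injective h L (by rw [h1, map_zero]) (by rw [h2, map_zero])
  map_add' u v := by
    obtain ⟨h1, h2⟩ := Classical.choose_spec (exists_jRes_pair h L 0 (u + v))
    obtain ⟨hu1, hu2⟩ := Classical.choose_spec (exists_jRes_pair h L 0 u)
    obtain ⟨hv1, hv2⟩ := Classical.choose_spec (exists_jRes_pair h L 0 v)
    exact jRes_pair_injective h L (by rw [h1, map_add, hu1, hv1, add_zero])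
      (by rw [h2, map_add, hu2, hv2])

lemma jRes_liftT (u : Additive (AS (sdiffT S S') L)ˣ) : jRes h L (liftT h L u) = 0 :=
  (Classical.choose_spec (exists_jRes_pair h L 0 u)).1

lemma jResT_liftT (u : Additive (AS (sdiffT S S') L)ˣ) :
    jRes (sdiffT_subset S S') L (liftT h L u) = u :=
  (Classical.choose_spec (exists_jRes_pair h L 0 u)).2

lemma eq_liftT {j : Additive (AS S' L)ˣ} (hj : jRes h L j = 0) :
    j = liftT h L (jRes (sdiffT_subset S S') L j) :=
  jRes_pair_injective h L (by rw [hj, jRes_liftT]) (by rw [jResT_liftT])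

lemma liftT_equivariant (g : G) (u : Additive (AS (sdiffT S S') L)ˣ) :
    liftT h L (jRepr G (sdiffT S S') L g u) = jRepr G S' L g (liftT h L u) := by
  refine jRes_pair_injective h L ?_ ?_
  · rw [jRes_liftT, jRes_equivariant, jRes_liftT, map_zero]
  · rw [jResT_liftT, jRes_equivariant, jResT_liftT]

lemma liftT_injective : Function.Injective (liftT h L) := fun u v huv => by
  have := congrArg (jRes (sdiffT_subset S S') L) huv
  rwa [jResT_liftT, jResT_liftT] at this

/-! ## The embedding `ι : U_T(L) ⟶ C_{S'}(L)` -/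

/-- The linear map `U_T(L) → C_{S'}(L)`, `u ↦ [(liftT u, 0)]`. -/
def iotaLin : (UT (sdiffT S S') L).toIntSubmodule →ₗ[ℤ] CS S' L :=
  (principal S' L).mkQ ∘ₗ
    (LinearMap.inl ℤ (Additive (AS S' L)ˣ) (PrimeOut S' L →₀ ℤ)) ∘ₗ
    (liftT h L).toIntLinearMap ∘ₗ (UT (sdiffT S S') L).toIntSubmodule.subtype

lemma iotaLin_apply (u : (UT (sdiffT S S') L).toIntSubmodule) :
    iotaLin h L u = (principal S' L).mkQ (liftT h L u.1, 0) := rfl

/-- The morphism `ι : U_T(L) ⟶ C_{S'}(L)` in `Rep ℤ G`. -/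
def iotaHom : URep (sdiffT S S') G L ⟶ CRep S' G L :=
  Rep.ofHom ⟨iotaLin h L, fun g => LinearMap.ext fun u => by
    change (principal S' L).mkQ (liftT h L (jRepr G (sdiffT S S') L g u.1), 0) =
      (principal S' L).mkQ (jdRepr S' G L g (liftT h L u.1, 0))
    rw [liftT_equivariant, jdRepr_apply, map_zero]⟩

lemma iotaHom_apply (u : (UT (sdiffT S S') L).toIntSubmodule) :
    (iotaHom h G L).hom u = (principal S' L).mkQ (liftT h L u.1, 0) := rfl

/-- Injectivity of the diagonal `Lˣ → J_S(L)` for `S ≠ ∅`. -/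
lemma unitsDiag_inj (S : Finset Nat.Primes) (L : Type) [Field L] [CharZero L]
    (hS : S.Nonempty) : Function.Injective (unitsDiag S L) := by
  obtain ⟨q, hq⟩ := hS
  have hinj : Function.Injective (algebraMap ℚ (QS S)) := by
    intro a b hab
    have h1 := congrArg (QS.proj S ⟨q, hq⟩) hab
    simpa using h1
  have hdiag : Function.Injective (asDiag S L) :=
    Algebra.TensorProduct.includeLeft_injective (R := ℚ) (S := ℚ) (A := L) (B := QS S) hinj
  intro x y hxy
  apply Additive.toMul.injective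
  apply Units.ext
  apply hdiag
  have := congrArg (fun z : Additive (AS S L)ˣ => ((z.toMul : (AS S L)ˣ) : AS S L)) hxy
  simpa [coe_unitsDiag_apply] using this

lemma iotaHom_injective (hS : S.Nonempty) : Function.Injective (iotaHom h G L).hom := by
  rw [injective_iff_map_eq_zero]
  intro u hu
  rw [iotaHom_apply] at hu
  have hmem : ((liftT h L u.1, 0) : JD S' L) ∈ principal S' L :=
    (Submodule.Quotient.mk_eq_zero _).1 hu
  obtain ⟨x, hx⟩ := hmem
  have hx1 : unitsDiag S' L x = liftT h L u.1 := congrArg Prod.fst hx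
  have hx2 : unitsDiag S L x = 0 := by
    rw [← jRes_unitsDiag h L x, hx1, jRes_liftT]
  have hx0 : x = 0 := unitsDiag_inj S L hS (by rw [hx2, map_zero])
  have hl : liftT h L u.1 = 0 := by rw [← hx1, hx0, map_zero]
  have hu0 : u.1 = 0 := liftT_injective h L (by rw [hl, map_zero])
  exact Subtype.ext hu0

lemma piHom_iotaHom (u : (UT (sdiffT S S') L).toIntSubmodule) :
    (piHom h G L hA hI).hom ((iotaHom h G L).hom u) = 0 := by
  rw [iotaHom_apply, piHom_mk,
    PhiHom_of_mem_UT h L hA hI (jRes_liftT h L u.1) (by rw [jResT_liftT]; exact u.2)]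
  exact map_zero _

lemma exists_iotaHom_eq (c : CS S' L) (hc : (piHom h G L hA hI).hom c = 0) :
    ∃ u : (UT (sdiffT S S') L).toIntSubmodule, (iotaHom h G L).hom u = c := by
  obtain ⟨y, rfl⟩ := (principal S' L).mkQ_surjective c
  rw [piHom_mk] at hc
  obtain ⟨x, hx⟩ := (Submodule.Quotient.mk_eq_zero _).1 hc
  have hx' : diagHom S L x = PhiHom h L hA hI y := hx
  have hker : PhiHom h L hA hI (y - diagHom S' L x) = 0 := by
    rw [map_sub, PhiHom_diagHom, hx', sub_self]
  obtain ⟨h2, h1, hU⟩ := PhiHom_eq_zero h L hA hI hker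
  refine ⟨⟨jRes (sdiffT_subset S S') L (y - diagHom S' L x).1, hU⟩, ?_⟩
  rw [iotaHom_apply]
  change (principal S' L).mkQ (liftT h L (jRes (sdiffT_subset S S') L (y - diagHom S' L x).1), 0)
    = (principal S' L).mkQ y
  rw [← eq_liftT h L h1, ← h2]
  change (principal S' L).mkQ (y - diagHom S' L x) = (principal S' L).mkQ y
  rw [map_sub, sub_eq_self]
  exact (Submodule.Quotient.mk_eq_zero _).2 ⟨x, rfl⟩

/-! ## The short exact sequence -/

/-- The short complex `U_T(L) ⟶ C_{S'}(L) ⟶ C_S(L)`. -/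
def sIndShortComplex : ShortComplex (Rep ℤ G) :=
  ShortComplex.mk (iotaHom h G L) (piHom h G L hA hI) (by
    ext u
    exact piHom_iotaHom h G L hA hI u)

lemma sIndShortComplex_shortExact (hP : PrescribedOrdSpec) (hS : S.Nonempty) :
    (sIndShortComplex h G L hA hI).ShortExact :=
  Fermat.Agent.S55.H295.rep_shortExact_of (sIndShortComplex h G L hA hI)
    (iotaHom_injective h G L hS)
    (fun c hc => exists_iotaHom_eq h G L hA hI c hc)
    (piHom_surjective h G L hA hI hP)

end PiPart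

/-! # Part: Coh -/

section CohPart

/-- For a short exact sequence `0 → X₁ → X₂ → X₃ → 0` with `Hⁿ(X₁) = 0 = Hⁿ⁺¹(X₁)`, the map
`Hⁿ(X₂) → Hⁿ(X₃)` is bijective. -/
theorem bijective_coeffMap_of_isZero {k G : Type} [CommRing k] [Group G]
    {X : ShortComplex (Rep.{0} k G)} (hX : X.ShortExact) (n : ℕ)
    (h1 : Limits.IsZero (groupCohomology X.X₁ n))
    (h2 : Limits.IsZero (groupCohomology X.X₁ (n + 1))) :
    Function.Bijective (T.coeffMap X.g n).hom := by
  constructor
  · have hex := mapShortComplex₂_exact hX n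
    have hm : Mono (mapShortComplex₂ X n).g := hex.mono_g (h1.eq_of_src _ _)
    exact (ModuleCat.mono_iff_injective _).1 hm
  · have hex := mapShortComplex₃_exact hX (i := n) rfl
    have he : Epi (mapShortComplex₃ hX (i := n) rfl).f := hex.epi_f (h2.eq_of_tgt _ _)
    exact (ModuleCat.epi_iff_surjective _).1 he

/-- Cohomologically trivial modules have vanishing `Hⁿ(H, -)`, `n ≥ 1`. -/
theorem isZero_of_isCohTriv {k G : Type} [CommRing k] [Group G] [Finite G] (A : Rep.{0} k G)
    (hA : T.IsCohTriv A) (H : Subgroup G) (n : ℕ) (hn : 0 < n) :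
    Limits.IsZero (groupCohomology (T.resSub A H) n) := by
  haveI : NeZero n := ⟨hn.ne'⟩
  letI : Fintype H := Fintype.ofFinite H
  exact Limits.IsZero.of_iso (hA H (n : ℤ))
    ((TateCohomology.isoGroupCohomology n).app (T.resSub A H)).symm

variable {S S' : Finset Nat.Primes} (h : S ⊆ S') (G L : Type) [Group G] [Field L]
  [NumberField L] [MulSemiringAction G L] (hA : ApproxSpec) (hI : IntSpec)

/-- The restriction of the short exact sequence to a subgroup `H ≤ G`. -/
lemma sIndShortComplex_res_shortExact (hP : PrescribedOrdSpec) (hS : S.Nonempty)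
    (H : Subgroup G) :
    ((sIndShortComplex h G L hA hI).map (Rep.resFunctor H.subtype)).ShortExact :=
  Fermat.Agent.S55.H295.rep_shortExact_of _
    (iotaHom_injective h G L hS)
    (fun c hc => exists_iotaHom_eq h G L hA hI c hc)
    (piHom_surjective h G L hA hI hP)

/-- (7) `π` induces bijections on `Hⁿ(H, -)`, `n ≥ 1`, as soon as `U_T(L)` is cohomologically
trivial. -/
theorem piHom_bijective [Finite G] (hP : PrescribedOrdSpec) (hS : S.Nonempty)
    (hU : T.IsCohTriv (URep (sdiffT S S') G L)) (H : Subgroup G) (n : ℕ) (hn : 0 < n) :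
    Function.Bijective
      (T.coeffMap ((Rep.resFunctor H.subtype).map (piHom h G L hA hI)) n).hom :=
  bijective_coeffMap_of_isZero (sIndShortComplex_res_shortExact h G L hA hI hP hS H) n
    (isZero_of_isCohTriv _ hU H n hn) (isZero_of_isCohTriv _ hU H (n + 1) (Nat.succ_pos n))

end CohPart

/-! # Part: Assembly -/

section AssemblyPart

/-- **G-SIND**, assembled from its four sub-leaves and the twin-vanishing criterion. -/
theorem sIndep_of (hA : ApproxSpec) (hI : IntSpec) (hP : PrescribedOrdSpec)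
    (hU : UnitsCohTrivSpec) (hT : T.TwinVanishingSpec) : SIndepSpec := by
  intro S S' h G L _ _ _ _ _ _ hS hur
  have hUct : T.IsCohTriv (URep (sdiffT S S') G L) :=
    hT ℤ G (URep (sdiffT S S') G L)
      (fun H => hU (sdiffT S S') G L (isUnramAbove_of_isUnramOut G L hur) H)
  exact ⟨PhiHom h L hA hI, piHom h G L hA hI, PhiHom_equivariant h G L hA hI,
    PhiHom_diagHom h L hA hI, PhiHom_fst h L hA hI, PhiHom_inr h L hA hI,
    piHom_mk h G L hA hI, PhiHom_surjective h L hA hI hP,
    fun H n hn => piHom_bijective h G L hA hI hP hS hUct H n hn⟩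

end AssemblyPart

end Fermat.Agent.S55.G.SIndH237
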