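import Fermat.Agent.S55.G.SIndH237.Spec

/-!
# S55 / G / G-SIND : leaf SIND-INT (`IntSpec`) — helper63

For `x ∈ Lˣ`: `x ⊗ 1 ∈ U_T(L)` iff `ord_w x = 0` for all primes `w` of `L` above `T`.

Key statement (`tmul_one_mem_RS_iff63`): for `y ∈ L`,
`y ⊗ 1 ∈ RS T L  ↔  ∀ w above T, w.valuation L y ≤ 1`.
-/

set_option autoImplicit false
set_option linter.unusedSectionVars false

open scoped NumberField TensorProduct
open IsDedekindDomain

noncomputable section

namespace Fermat.Agent.S55.G.SIndH237.H63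

open Fermat.Agent.S55.G Fermat.Agent.S55.G.SIndH237

variable (T : Finset Nat.Primes) (L : Type) [Field L] [NumberField L]

local notation "ι63" => Module.Free.ChooseBasisIndex ℤ (𝓞 L)

/-! ## Coordinates on `L ⊗ ℚ_T` with respect to an integral basis -/

/-- The `ℚ_T`-basis `1 ⊗ b_k` of `ℚ_T ⊗ L`. -/
def tbasis63 : Module.Basis ι63 (QS T) (QS T ⊗[ℚ] L) :=
  Algebra.TensorProduct.basis (QS T) (NumberField.integralBasis L)

/-- The `k`-th coordinate of an element of `L ⊗ ℚ_T` (a `ℚ`-linear map to `ℚ_T`). -/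
def coord63 (k : ι63) : AS T L →ₗ[ℚ] QS T :=
  ((Finsupp.lapply k : (ι63 →₀ QS T) →ₗ[QS T] QS T).restrictScalars ℚ) ∘ₗ
    ((tbasis63 T L).repr.toLinearMap.restrictScalars ℚ) ∘ₗ
      (Algebra.TensorProduct.comm ℚ L (QS T)).toLinearMap

lemma coord63_tmul (k : ι63) (x : L) (c : QS T) :
    coord63 T L k (x ⊗ₜ[ℚ] c) =
      c * algebraMap ℚ (QS T) ((NumberField.integralBasis L).repr x k) := by
  simp [coord63, tbasis63]

lemma sum_coord63 (z : AS T L) :
    z = ∑ k : ι63, (NumberField.integralBasis L k) ⊗ₜ[ℚ] (coord63 T L k z) := by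
  have h := (tbasis63 T L).sum_repr ((Algebra.TensorProduct.comm ℚ L (QS T)) z)
  have h2 := congrArg (Algebra.TensorProduct.comm ℚ L (QS T)).symm h
  rw [AlgEquiv.symm_apply_apply] at h2
  have h3 : ∀ k : ι63,
      (tbasis63 T L).repr ((Algebra.TensorProduct.comm ℚ L (QS T)) z) k • (tbasis63 T L) k
      = (coord63 T L k z) ⊗ₜ[ℚ] (NumberField.integralBasis L k) := by
    intro k
    rw [tbasis63, Algebra.TensorProduct.basis_repr_symm_apply']
    rfl
  calc z = (Algebra.TensorProduct.comm ℚ L (QS T)).symm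
        (∑ i, ((tbasis63 T L).repr ((Algebra.TensorProduct.comm ℚ L (QS T)) z)) i •
          (tbasis63 T L) i) := h2.symm
    _ = ∑ k : ι63, (Algebra.TensorProduct.comm ℚ L (QS T)).symm
          ((coord63 T L k z) ⊗ₜ[ℚ] (NumberField.integralBasis L k)) := by
        rw [map_sum]
        exact Finset.sum_congr rfl fun k _ => by rw [h3 k]
    _ = ∑ k : ι63, (NumberField.integralBasis L k) ⊗ₜ[ℚ] (coord63 T L k z) := rfl

/-! ## Elements of `RS` have integral coordinates -/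

lemma toPi_algebraMap63 (α : ℚ) (q : T) :
    QS.toPi T (algebraMap ℚ (QS T) α) q = ((α : ℚ) : Qq q.1) := by
  have h : QS.toPi T (algebraMap ℚ (QS T) α) q = algebraMap ℚ (Qq q.1) α := rfl
  rw [h, eq_ratCast]

lemma algebraMap_mem_ZS_iff63 (α : ℚ) :
    algebraMap ℚ (QS T) α ∈ ZS T ↔ ∀ q ∈ T, ¬ ((q : ℕ) ∣ α.den) := by
  rw [mem_ZS_iff]
  constructor
  · intro h q hq
    have : Fact (q : ℕ).Prime := ⟨q.2⟩
    have h1 := h ⟨q, hq⟩
    rw [toPi_algebraMap63] at h1
    have h2 := (Padic.norm_rat_le_one_iff_padicValuation_le_one (q : ℕ)).1 h1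
    exact Rat.padicValuation_le_one_iff.1 h2
  · intro h q
    have : Fact (q.1 : ℕ).Prime := ⟨q.1.2⟩
    rw [toPi_algebraMap63]
    exact Padic.norm_rat_le_one (h q.1 q.2)

lemma algebraMap_int_mem_ZS63 (n : ℤ) : algebraMap ℚ (QS T) (n : ℚ) ∈ ZS T := by
  rw [algebraMap_mem_ZS_iff63]
  intro q _ h
  rw [Rat.den_intCast] at h
  exact q.2.one_lt.ne' (Nat.dvd_one.1 h)

/-- `z` has all its coordinates in `ℤ_T`. -/
def Good63 (z : AS T L) : Prop := ∀ k : ι63, coord63 T L k z ∈ ZS T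

lemma good63_tmul (a : 𝓞 L) (c : QS T) (hc : c ∈ ZS T) :
    Good63 T L ((a : L) ⊗ₜ[ℚ] c) := by
  intro k
  rw [coord63_tmul]
  refine (ZS T).mul_mem hc ?_
  have h := NumberField.integralBasis_repr_apply L a k
  rw [show ((a : L)) = algebraMap (𝓞 L) L a from rfl, h]
  exact algebraMap_int_mem_ZS63 T _

lemma good63_zero : Good63 T L 0 := fun k => by
  rw [map_zero]; exact (ZS T).zero_mem

lemma good63_add {z z' : AS T L} (hz : Good63 T L z) (hz' : Good63 T L z') :
    Good63 T L (z + z') := fun k => by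
  rw [map_add]; exact (ZS T).add_mem (hz k) (hz' k)

lemma good63_neg {z : AS T L} (hz : Good63 T L z) : Good63 T L (-z) := fun k => by
  rw [map_neg]; exact (ZS T).neg_mem (hz k)

lemma good63_sum {α : Type} (s : Finset α) (f : α → AS T L)
    (h : ∀ i ∈ s, Good63 T L (f i)) : Good63 T L (∑ i ∈ s, f i) := by
  classical
  induction s using Finset.induction_on with
  | empty => simpa using good63_zero T L
  | insert a s ha ih =>
    rw [Finset.sum_insert ha]
    exact good63_add T L (h a (Finset.mem_insert_self a s))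
      (ih fun i hi => h i (Finset.mem_insert_of_mem hi))

lemma good63_mul {z z' : AS T L} (hz : Good63 T L z) (hz' : Good63 T L z') :
    Good63 T L (z * z') := by
  have e : z * z' = ∑ i : ι63, ∑ j : ι63,
      ((NumberField.integralBasis L i) ⊗ₜ[ℚ] (coord63 T L i z)) *
        ((NumberField.integralBasis L j) ⊗ₜ[ℚ] (coord63 T L j z')) := by
    conv_lhs => rw [sum_coord63 T L z, sum_coord63 T L z', Finset.sum_mul_sum]
  rw [e]
  refine good63_sum T L _ _ fun i _ => good63_sum T L _ _ fun j _ => ?_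
  rw [Algebra.TensorProduct.tmul_mul_tmul, NumberField.integralBasis_apply,
    NumberField.integralBasis_apply, ← map_mul]
  exact good63_tmul T L _ _ ((ZS T).mul_mem (hz i) (hz' j))

lemma good63_one : Good63 T L 1 := by
  have h := good63_tmul T L 1 1 (ZS T).one_mem
  rwa [show ((1 : 𝓞 L) : L) = 1 from rfl] at h

lemma good63_of_mem_RS {z : AS T L} (hz : z ∈ RS T L) : Good63 T L z := by
  induction hz using Subring.closure_induction with
  | mem x hx =>
    rcases hx with ⟨a, rfl⟩ | ⟨c, hc, rfl⟩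
    · exact good63_tmul T L a 1 (ZS T).one_mem
    · have h := good63_tmul T L 1 c hc
      rwa [show ((1 : 𝓞 L) : L) = 1 from rfl] at h
  | zero => exact good63_zero T L
  | one => exact good63_one T L
  | add x y _ _ hx hy => exact good63_add T L hx hy
  | neg x _ hx => exact good63_neg T L hx
  | mul x y _ _ hx hy => exact good63_mul T L hx hy

/-! ## Denominators -/

/-- The product of the denominators of the coordinates of `y` in the integral basis. -/
def prodDen63 (y : L) : ℕ := ∏ k : ι63, ((NumberField.integralBasis L).repr y k).den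

lemma prodDen63_ne_zero (y : L) : prodDen63 L y ≠ 0 :=
  Finset.prod_ne_zero_iff.2 fun _ _ => Rat.den_nz _

lemma prodDen63_mul_mem (y : L) :
    ((prodDen63 L y : ℕ) : L) * y ∈ (algebraMap (𝓞 L) L).range := by
  classical
  rw [← NumberField.mem_span_integralBasis, Module.Basis.mem_span_iff_repr_mem]
  intro i
  have h1 : ((prodDen63 L y : ℕ) : L) * y = ((prodDen63 L y : ℕ) : ℚ) • y := by
    rw [Algebra.smul_def]
    simp
  rw [h1, map_smul, Finsupp.smul_apply, smul_eq_mul]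
  have h2 : prodDen63 L y =
      (∏ k ∈ Finset.univ.erase i, ((NumberField.integralBasis L).repr y k).den) *
        ((NumberField.integralBasis L).repr y i).den := by
    unfold prodDen63
    rw [Finset.prod_erase_mul _ _ (Finset.mem_univ i)]
  refine ⟨((∏ k ∈ Finset.univ.erase i, ((NumberField.integralBasis L).repr y k).den : ℕ) : ℤ) *
    ((NumberField.integralBasis L).repr y i).num, ?_⟩
  rw [h2]
  have h3 := Rat.mul_den_eq_num ((NumberField.integralBasis L).repr y i)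
  push_cast
  rw [mul_assoc, mul_comm ((((NumberField.integralBasis L).repr y i).den : ℕ) : ℚ), h3]
  simp

lemma not_dvd_prodDen63 (y : L) (hy : y ⊗ₜ[ℚ] (1 : QS T) ∈ RS T L) (q : Nat.Primes)
    (hq : q ∈ T) : ¬ ((q : ℕ) ∣ prodDen63 L y) := by
  intro h
  obtain ⟨k, _, hk⟩ := (Prime.dvd_finsetProd_iff (Nat.Prime.prime q.2) _).1 h
  have h1 := good63_of_mem_RS T L hy k
  rw [coord63_tmul, one_mul, algebraMap_mem_ZS_iff63] at h1
  exact h1 q hq hk

/-! ## Valuations of rational integers -/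

lemma natCast_notMem63 (w : HeightOneSpectrum (𝓞 L)) (q : Nat.Primes)
    (hq : ((q : ℕ) : 𝓞 L) ∈ w.asIdeal) (s : ℕ) (hs : ¬ ((q : ℕ) ∣ s)) :
    ((s : ℕ) : 𝓞 L) ∉ w.asIdeal := by
  intro h
  have hc : Nat.Coprime s q := (Nat.Coprime.symm ((Nat.Prime.coprime_iff_not_dvd q.2).2 hs))
  obtain ⟨a, b, hab⟩ := Nat.isCoprime_iff_coprime.2 hc
  have h1 : ((a : ℤ) : 𝓞 L) * ((s : ℕ) : 𝓞 L) + ((b : ℤ) : 𝓞 L) * ((q : ℕ) : 𝓞 L) = 1 := by
    have := congrArg (fun z : ℤ => (z : 𝓞 L)) hab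
    simpa using this
  have h2 : (1 : 𝓞 L) ∈ w.asIdeal := by
    rw [← h1]
    exact w.asIdeal.add_mem (w.asIdeal.mul_mem_left _ h) (w.asIdeal.mul_mem_left _ hq)
  exact w.isPrime.ne_top ((Ideal.eq_top_iff_one _).2 h2)

lemma valuation_natCast_eq_one63 (w : HeightOneSpectrum (𝓞 L)) (s : ℕ)
    (hs : ((s : ℕ) : 𝓞 L) ∉ w.asIdeal) : w.valuation L ((s : ℕ) : L) = 1 := by
  have h := (HeightOneSpectrum.valuation_eq_one_iff_notMem (K := L) (v := w)
    (r := ((s : ℕ) : 𝓞 L))).2 hs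
  rwa [map_natCast] at h

lemma valuation_le_one_of_mem_range63 (w : HeightOneSpectrum (𝓞 L)) {z : L}
    (hz : z ∈ (algebraMap (𝓞 L) L).range) : w.valuation L z ≤ 1 := by
  obtain ⟨a, rfl⟩ := hz
  exact w.valuation_le_one a

/-! ## The key equivalence -/

lemma valuation_le_one_of_mem_RS63 (y : L) (hy : y ⊗ₜ[ℚ] (1 : QS T) ∈ RS T L)
    (w : HeightOneSpectrum (𝓞 L)) (hw : IsAbove T L w) : w.valuation L y ≤ 1 := by
  obtain ⟨q, hq, hqw⟩ := hw
  have h1 := valuation_le_one_of_mem_range63 L w (prodDen63_mul_mem L y)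
  rw [map_mul, valuation_natCast_eq_one63 L w _
    (natCast_notMem63 L w q hqw _ (not_dvd_prodDen63 T L y hy q hq)), one_mul] at h1
  exact h1

lemma exists_factor63 (m : ℕ) (hm : m ≠ 0) :
    ∃ n' s : ℕ, m = n' * s ∧ (∀ q ∈ T, ¬ ((q : ℕ) ∣ s)) ∧
      ∀ w : HeightOneSpectrum (𝓞 L), ¬ IsAbove T L w → ((n' : ℕ) : 𝓞 L) ∉ w.asIdeal := by
  classical
  induction T using Finset.induction_on with
  | empty =>
    refine ⟨1, m, (one_mul m).symm, fun q hq => absurd hq (Finset.notMem_empty q), fun w _ h => ?_⟩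
    rw [Nat.cast_one] at h
    exact w.isPrime.ne_top ((Ideal.eq_top_iff_one _).2 h)
  | insert q T hqT ih =>
    obtain ⟨n', s, hms, hs, hn'⟩ := ih
    have hs0 : s ≠ 0 := by
      rintro rfl
      exact hm (by rw [hms, mul_zero])
    obtain ⟨e, s', hs', hse⟩ := Nat.exists_eq_pow_mul_and_not_dvd hs0 (q : ℕ) q.2.one_lt.ne'
    refine ⟨n' * (q : ℕ) ^ e, s', ?_, ?_, ?_⟩
    · rw [hms, hse, mul_assoc]
    · intro q' hq'
      rcases Finset.mem_insert.1 hq' with rfl | hq'
      · exact hs'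
      · exact fun h => hs q' hq' (hse ▸ Dvd.dvd.mul_left h _)
    · intro w hw h
      have hwT : ¬ IsAbove T L w := fun ⟨q', hq', hq'w⟩ =>
        hw ⟨q', Finset.mem_insert_of_mem hq', hq'w⟩
      have hqw : ((q : ℕ) : 𝓞 L) ∉ w.asIdeal := fun hq' =>
        hw ⟨q, Finset.mem_insert_self q T, hq'⟩
      rw [Nat.cast_mul, Nat.cast_pow] at h
      rcases w.isPrime.mem_or_mem h with h | h
      · exact hn' w hwT h
      · exact hqw (w.isPrime.mem_of_pow_mem e h)

lemma tmul_one_mem_RS_of63 (y : L)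
    (h : ∀ w : HeightOneSpectrum (𝓞 L), IsAbove T L w → w.valuation L y ≤ 1) :
    y ⊗ₜ[ℚ] (1 : QS T) ∈ RS T L := by
  obtain ⟨n', s, hms, hs, hn'⟩ := exists_factor63 T L (prodDen63 L y) (prodDen63_ne_zero L y)
  have hs0 : s ≠ 0 := by
    rintro rfl
    exact prodDen63_ne_zero L y (by rw [hms, mul_zero])
  have hmy := prodDen63_mul_mem L y
  -- `z = s y` is integral
  have hz : ((s : ℕ) : L) * y ∈ (algebraMap (𝓞 L) L).range := by
    apply HeightOneSpectrum.mem_integers_of_valuation_le_one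
    intro w
    by_cases hw : IsAbove T L w
    · rw [map_mul]
      refine mul_le_one' ?_ (h w hw)
      exact valuation_le_one_of_mem_range63 L w
        ⟨((s : ℕ) : 𝓞 L), map_natCast (algebraMap (𝓞 L) L) s⟩
    · have h1 := valuation_le_one_of_mem_range63 L w hmy
      rw [hms, Nat.cast_mul, mul_assoc, map_mul,
        valuation_natCast_eq_one63 L w _ (hn' w hw), one_mul] at h1
      exact h1
  obtain ⟨a, ha⟩ := hz
  have hc : algebraMap ℚ (QS T) ((s : ℚ)⁻¹) ∈ ZS T := by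
    rw [algebraMap_mem_ZS_iff63]
    intro q hq
    rw [Rat.inv_natCast_den, if_neg hs0]
    exact hs q hq
  have e : y ⊗ₜ[ℚ] (1 : QS T) =
      ((a : L) ⊗ₜ[ℚ] (1 : QS T)) * ((1 : L) ⊗ₜ[ℚ] (algebraMap ℚ (QS T) ((s : ℚ)⁻¹))) := by
    rw [Algebra.TensorProduct.tmul_mul_tmul, mul_one, one_mul, Algebra.algebraMap_eq_smul_one,
      TensorProduct.tmul_smul, TensorProduct.smul_tmul']
    congr 1
    rw [show ((a : L)) = algebraMap (𝓞 L) L a from rfl, ha, Algebra.smul_def]
    have hsL : ((s : ℕ) : L) ≠ 0 := Nat.cast_ne_zero.2 hs0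
    simp only [map_inv₀, map_natCast]
    field_simp
  rw [e]
  exact (RS T L).mul_mem (Subring.subset_closure (Or.inl ⟨a, rfl⟩))
    (Subring.subset_closure (Or.inr ⟨_, hc, rfl⟩))

theorem tmul_one_mem_RS_iff63 (y : L) :
    y ⊗ₜ[ℚ] (1 : QS T) ∈ RS T L ↔
      ∀ w : HeightOneSpectrum (𝓞 L), IsAbove T L w → w.valuation L y ≤ 1 :=
  ⟨fun hy w hw => valuation_le_one_of_mem_RS63 T L y hy w hw, tmul_one_mem_RS_of63 T L y⟩

/-! ## The leaf -/

theorem int63 : IntSpec := by
  intro T L _ _ x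
  rw [mem_UT_iff]
  have e1 : (((unitsDiag T L x).toMul : (AS T L)ˣ) : AS T L) =
      ((x.toMul : Lˣ) : L) ⊗ₜ[ℚ] (1 : QS T) := rfl
  have e2 : ((((unitsDiag T L x).toMul)⁻¹ : (AS T L)ˣ) : AS T L) =
      (((x.toMul)⁻¹ : Lˣ) : L) ⊗ₜ[ℚ] (1 : QS T) := by
    have : ((unitsDiag T L x).toMul)⁻¹ = (unitsDiag T L (-x)).toMul := by
      rw [map_neg]; rfl
    rw [this]
    rfl
  rw [e1, e2, tmul_one_mem_RS_iff63, tmul_one_mem_RS_iff63]
  constructor
  · rintro ⟨h1, h2⟩ w hw
    rw [ordAt_eq_zero_iff]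
    refine le_antisymm (h1 w hw) ?_
    have h3 := h2 w hw
    rw [Units.val_inv_eq_inv_val, map_inv₀] at h3
    have hne : w.valuation L ((x.toMul : Lˣ) : L) ≠ 0 := by simp
    exact (inv_le_one₀ (zero_lt_iff.2 hne)).1 h3
  · intro h
    refine ⟨fun w hw => ?_, fun w hw => ?_⟩
    · exact ((ordAt_eq_zero_iff w x).1 (h w hw)).le
    · rw [Units.val_inv_eq_inv_val, map_inv₀, (ordAt_eq_zero_iff w x).1 (h w hw), inv_one]

end Fermat.Agent.S55.G.SIndH237.H63
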