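/-
S55 (Poitou–Tate), layer G, leaf G-SIND:ORD — `PrescribedOrdSpec` (helper870).

Every divisor supported above `T` is the `T`-part of the divisor of some `x ∈ Lˣ`:
Chinese remainder theorem in the Dedekind domain `𝓞 L` with uniformisers.
Sorry-free; Mathlib + the frozen `SIndH237/Spec.lean` only.
-/
import Fermat.Agent.S55.G.SIndH237.Spec

set_option autoImplicit false

open scoped NumberField
open IsDedekindDomain

namespace Fermat.Agent.S55.G.SIndH237.H870

open Fermat.Agent.S55.G Fermat.Agent.S55.G.SIndH237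

variable {L : Type} [Field L] [NumberField L]

/-- Only finitely many primes of `L` lie above a finite set `T` of rational primes. -/
theorem finite_isAbove (T : Finset Nat.Primes) :
    {w : HeightOneSpectrum (𝓞 L) | IsAbove T L w}.Finite := by
  classical
  set n : ℕ := ∏ q ∈ T, (q : ℕ) with hn
  have hn0 : n ≠ 0 := Finset.prod_ne_zero_iff.2 (fun q _ => q.2.ne_zero)
  have hI : (Ideal.span {((n : ℕ) : 𝓞 L)} : Ideal (𝓞 L)) ≠ 0 := by
    rw [Ne, Ideal.zero_eq_bot, Ideal.span_singleton_eq_bot]
    exact_mod_cast hn0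
  refine (Ideal.finite_factors hI).subset ?_
  rintro w ⟨q, hq, hqw⟩
  show w.asIdeal ∣ Ideal.span {((n : ℕ) : 𝓞 L)}
  rw [Ideal.dvd_span_singleton]
  obtain ⟨m, hm⟩ : (q : ℕ) ∣ n := Finset.dvd_prod_of_mem _ hq
  rw [hm, Nat.cast_mul]
  exact w.asIdeal.mul_mem_right _ hqw

/-- An integer of `L` with prescribed nonnegative orders at finitely many primes. -/
theorem exists_intValuation_eq (W : Finset (HeightOneSpectrum (𝓞 L)))
    (e : HeightOneSpectrum (𝓞 L) → ℕ) :
    ∃ a : 𝓞 L, a ≠ 0 ∧ ∀ w ∈ W, w.intValuation a = WithZero.exp (-(e w : ℤ)) := by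
  classical
  rcases W.eq_empty_or_nonempty with rfl | ⟨w₀, hw₀⟩
  · exact ⟨1, one_ne_zero, fun w hw => absurd hw (Finset.notMem_empty w)⟩
  have hunif : ∀ w : HeightOneSpectrum (𝓞 L), ∃ π : 𝓞 L,
      w.intValuation π = WithZero.exp (-(1 : ℤ)) := fun w => w.intValuation_exists_uniformizer
  choose π hπ using hunif
  obtain ⟨y, hy⟩ := IsDedekindDomain.exists_forall_sub_mem_ideal (s := W)
    (fun w : HeightOneSpectrum (𝓞 L) => w.asIdeal) (fun w => e w + 1)
    (fun w _ => w.prime)
    (fun w _ w' _ hne h => hne (HeightOneSpectrum.ext h))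
    (fun w => π w.1 ^ e w.1)
  have hval : ∀ w ∈ W, w.intValuation y = WithZero.exp (-(e w : ℤ)) := by
    intro w hw
    have h1 : w.intValuation (y - π w ^ e w) ≤ WithZero.exp (-((e w + 1 : ℕ) : ℤ)) :=
      (w.intValuation_le_pow_iff_mem _ _).2 (hy w hw)
    have h2 : w.intValuation (π w ^ e w) = WithZero.exp (-(e w : ℤ)) := by
      rw [map_pow, hπ w, ← WithZero.exp_nsmul]
      congr 1
      simp
    have h3 : w.intValuation (y - π w ^ e w) < w.intValuation (π w ^ e w) := by
      rw [h2]
      refine lt_of_le_of_lt h1 ?_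
      rw [WithZero.exp_lt_exp]
      push_cast
      omega
    have h4 : y = (y - π w ^ e w) + π w ^ e w := by ring
    rw [h4, Valuation.map_add_eq_of_lt_right _ h3, h2]
  refine ⟨y, ?_, hval⟩
  rintro rfl
  have := hval w₀ hw₀
  rw [map_zero] at this
  exact WithZero.exp_ne_zero.symm this

/-- **SIND-ORD.** -/
theorem prescribedOrd : PrescribedOrdSpec := by
  classical
  intro T L _ _ d _
  set W : Finset (HeightOneSpectrum (𝓞 L)) := (finite_isAbove (L := L) T).toFinset with hW
  obtain ⟨a, ha0, ha⟩ := exists_intValuation_eq W (fun w => (d w).toNat)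
  obtain ⟨b, hb0, hb⟩ := exists_intValuation_eq W (fun w => (-(d w)).toNat)
  have ha0' : (a : L) ≠ 0 := by
    intro h
    exact ha0 (by exact_mod_cast h)
  have hb0' : (b : L) ≠ 0 := by
    intro h
    exact hb0 (by exact_mod_cast h)
  refine ⟨Additive.ofMul (Units.mk0 ((a : L) / (b : L)) (div_ne_zero ha0' hb0')), ?_⟩
  intro w hw
  have hwW : w ∈ W := by
    rw [hW, Set.Finite.mem_toFinset]
    exact hw
  have hva : w.valuation L (a : L) = WithZero.exp (-((d w).toNat : ℤ)) := by
    have := w.valuation_of_algebraMap (K := L) a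
    rw [← ha w hwW, ← this]
  have hvb : w.valuation L (b : L) = WithZero.exp (-((-(d w)).toNat : ℤ)) := by
    have := w.valuation_of_algebraMap (K := L) b
    rw [← hb w hwW, ← this]
  rw [ordAt_apply]
  show -WithZero.log (w.valuation L ((a : L) / (b : L))) = d w
  rw [map_div₀, hva, hvb, ← WithZero.exp_sub, WithZero.log_exp]
  have := Int.toNat_sub_toNat_neg (d w)
  omega

end Fermat.Agent.S55.G.SIndH237.H870
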