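/-
S55 (Poitou–Tate), layer G, leaf G-SIND (`SIndepSpec`, independence of `S`; REC (O5)) — CLOSED.

    sIndep : SIndepSpec        (unconditional)

Assembly `sIndep_of` (helper237, `SIndH237/Assembly.lean`) applied to the four sub-leaves
* `H959.approx        : ApproxSpec`         (weak approximation, helper959),
* `H63.int63          : IntSpec`            (principal integral units, helper63),
* `H870.prescribedOrd : PrescribedOrdSpec`  (prescribed orders, helper870),
* `H95.unitsCohTriv   : UnitsCohTrivSpec`   (unit idèles at unramified primes, helper95),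
and to the twin-vanishing criterion `H295.twinVanishing` (layer T, helper295).
-/
import Fermat.Agent.S55.G.SIndH237.Assembly
import Fermat.Agent.S55.G.SIndH237.ApproxH959
import Fermat.Agent.S55.G.SIndH237.IntH63
import Fermat.Agent.S55.G.SIndH237.OrdH870
import Fermat.Agent.S55.G.SIndH237.H95.Main
import Fermat.Agent.S55.H295.TwinVanishing

set_option autoImplicit false

namespace Fermat.Agent.S55.G.SIndH237

open Fermat.Agent.S55.G

/-- **G-SIND** from `UnitsCohTrivSpec` and twin vanishing. -/
theorem sIndep_of_uct (hU : UnitsCohTrivSpec) (hT : T.TwinVanishingSpec) : SIndepSpec :=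
  sIndep_of H959.approx H63.int63 H870.prescribedOrd hU hT

/-- **G-SIND** (independence of `S`), unconditional. -/
theorem sIndep : SIndepSpec :=
  sIndep_of_uct H95.unitsCohTriv Fermat.Agent.S55.H295.twinVanishing

end Fermat.Agent.S55.G.SIndH237
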