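/-
S55 (Poitou–Tate), layer G, leaf G-SIND, sub-leaf SIND-ORD (subtask 421) — helper347.

  theorem Fermat.Agent.S55.G.SIndH237.OrdH347.prescribedOrd : PrescribedOrdSpec

Every divisor supported above `T` is the `T`-part of the divisor of some `x ∈ Lˣ`.
Proof: the set of primes above `T` is finite; Chinese remainder theorem in the Dedekind
domain `𝓞 L` with powers of uniformisers gives integral elements with prescribed
nonnegative orders; take a quotient of two of them.

Generic part (any Dedekind domain): `exists_intValuation_eq`, `exists_valuation_eq`.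
-/
import Fermat.Agent.S55.G.SIndH237.Spec

set_option autoImplicit false

open scoped NumberField
open IsDedekindDomain

noncomputable section

namespace Fermat.Agent.S55.G.SIndH237.OrdH347

open Fermat.Agent.S55.G

section Generic

variable {R : Type*} [CommRing R] [IsDedekindDomain R]

/-- In a Dedekind domain there is a nonzero element with prescribed (nonnegative) orders at
finitely many primes. -/
theorem exists_intValuation_eq (W : Finset (HeightOneSpectrum R))
    (n : HeightOneSpectrum R → ℕ) :
    ∃ a : R, a ≠ 0 ∧ ∀ w ∈ W, w.intValuation a = WithZero.exp (-(n w : ℤ)) := by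
  classical
  rcases W.eq_empty_or_nonempty with rfl | hne
  · exact ⟨1, one_ne_zero, by simp⟩
  choose π hπ using fun w : HeightOneSpectrum R => w.intValuation_exists_uniformizer
  obtain ⟨y, hy⟩ := IsDedekindDomain.exists_forall_sub_mem_ideal (s := W)
    (fun w => w.asIdeal) (fun w => n w + 1) (fun w _ => w.prime)
    (fun w _ w' _ h hh => h (HeightOneSpectrum.ext hh)) (fun w => π w ^ n w)
  have key : ∀ w ∈ W, w.intValuation y = WithZero.exp (-(n w : ℤ)) := by
    intro w hw
    have h1 : w.intValuation (y - π w ^ n w) ≤ WithZero.exp (-((n w + 1 : ℕ) : ℤ)) :=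
      (w.intValuation_le_pow_iff_mem _ _).2 (hy w hw)
    have h2 : w.intValuation (π w ^ n w) = WithZero.exp (-(n w : ℤ)) := by
      rw [map_pow, hπ w, ← WithZero.exp_nsmul]
      congr 1
      simp
    have h3 : w.intValuation (y - π w ^ n w) < w.intValuation (π w ^ n w) := by
      rw [h2]
      refine lt_of_le_of_lt h1 ?_
      rw [WithZero.exp_lt_exp]
      push_cast
      omega
    have h4 : y = (y - π w ^ n w) + π w ^ n w := by ring
    rw [h4, Valuation.map_add_eq_of_lt_right _ h3, h2]
  refine ⟨y, ?_, key⟩
  obtain ⟨w, hw⟩ := hne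
  intro h0
  have := key w hw
  rw [h0, map_zero] at this
  exact WithZero.exp_ne_zero this.symm

variable (K : Type*) [Field K] [Algebra R K] [IsFractionRing R K]

/-- In the fraction field of a Dedekind domain there is a nonzero element with prescribed
orders at finitely many primes. -/
theorem exists_valuation_eq (W : Finset (HeightOneSpectrum R))
    (d : HeightOneSpectrum R → ℤ) :
    ∃ x : Kˣ, ∀ w ∈ W, w.valuation K (x : K) = WithZero.exp (-(d w)) := by
  obtain ⟨a, ha0, ha⟩ := exists_intValuation_eq W (fun w => (d w).toNat)
  obtain ⟨b, hb0, hb⟩ := exists_intValuation_eq W (fun w => (-(d w)).toNat)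
  have ha' : algebraMap R K a ≠ 0 := by
    simpa using (IsFractionRing.injective R K).ne ha0
  have hb' : algebraMap R K b ≠ 0 := by
    simpa using (IsFractionRing.injective R K).ne hb0
  refine ⟨Units.mk0 (algebraMap R K a / algebraMap R K b) (div_ne_zero ha' hb'), ?_⟩
  intro w hw
  rw [Units.val_mk0, map_div₀, HeightOneSpectrum.valuation_of_algebraMap,
    HeightOneSpectrum.valuation_of_algebraMap, ha w hw, hb w hw, ← WithZero.exp_sub]
  congr 1
  omega

end Generic

section NumberField

variable (T : Finset Nat.Primes) (L : Type) [Field L] [NumberField L]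

/-- The set of primes of `L` above `T` is finite. -/
theorem finite_isAbove : {w : HeightOneSpectrum (𝓞 L) | IsAbove T L w}.Finite := by
  classical
  have hsub : {w : HeightOneSpectrum (𝓞 L) | IsAbove T L w} ⊆
      ⋃ q ∈ T, {w : HeightOneSpectrum (𝓞 L) |
        w.asIdeal ∣ Ideal.span {(((q : ℕ) : 𝓞 L))}} := by
    rintro w ⟨q, hq, hqw⟩
    simp only [Set.mem_iUnion, Set.mem_ofPred_eq]
    exact ⟨q, hq, by rwa [Ideal.dvd_span_singleton]⟩
  refine Set.Finite.subset (Set.Finite.biUnion T.finite_toSet fun q _ => ?_) hsub
  apply Ideal.finite_factors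
  rw [Ne, Ideal.zero_eq_bot, Ideal.span_singleton_eq_bot]
  exact_mod_cast q.2.ne_zero

/-- **SIND-ORD**: every divisor supported above `T` is the `T`-part of the divisor of some
`x ∈ Lˣ`. -/
theorem prescribedOrd : PrescribedOrdSpec := by
  intro T L _ _ d _
  classical
  obtain ⟨x, hx⟩ := exists_valuation_eq (R := 𝓞 L) L (finite_isAbove T L).toFinset (fun w => d w)
  refine ⟨Additive.ofMul x, fun w hw => ?_⟩
  have h := hx w (by simpa using hw)
  rw [ordAt_apply]
  change -WithZero.log (w.valuation L (x : L)) = d w
  rw [h, WithZero.log_exp, neg_neg]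

end NumberField

end Fermat.Agent.S55.G.SIndH237.OrdH347
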