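/-
S55 (Poitou–Tate), layer G, leaf G-SIND, sub-leaf SIND-UCT — support package (helper959).

Concrete facts about the integral model `RS T L = 𝒪_L ⊗ ℤ_T` needed to instantiate an abstract
"complete semilocal ring with trivial inertia" theorem:

* `zsEquivPi`, `isNoetherianRing_ZS`, `isAdicComplete_ZS` : `ℤ_T ≃ ∏ ℤ_q` is noetherian and
  `n`-adically complete (`n = nT T = ∏_{q ∈ T} q`);
* `moduleFinite_zs_rs` : `RS` is a finite `ℤ_T`-module (algebra structure `algZsRs`);
* `isAdicComplete_RS` : `RS` is `n`-adically complete;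
* `finite_ZS_quot`, `finite_RS_quot` : `ℤ_T / n` and `RS / n` are finite;
* `span_nT_le_jacobson`, `nT_mem_of_isMaximal` : `n` lies in every maximal ideal of `RS`;
* `primeBelow`, `isAbove_primeBelow`, `eq_one_of_forall_sub_mem` : trivial inertia at the maximal
  ideals of `RS` when `L/L^G` is unramified above `T`.
-/
import Fermat.Agent.S55.G.SIndH237.ApproxH959
import Fermat.Prelude.Thm_IsAdicComplete_of_module_finite

set_option autoImplicit false
set_option linter.unusedSectionVars false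
set_option linter.style.haveILetI false
set_option linter.unusedVariables false

open scoped NumberField TensorProduct
open IsDedekindDomain

noncomputable section

namespace Fermat.Agent.S55.G.SIndH237.H959

open Fermat.Agent.S55.G Fermat.Agent.S55.G.SIndH237

/-! ## 1. `ℤ_T ≃ ∏ ℤ_q` is noetherian and `n`-adically complete -/

section ZSComplete

variable (T : Finset Nat.Primes)

/-- `ℤ_T ≃ ∏_{q ∈ T} ℤ_q`. -/
def zsEquivPi : ZS T ≃+* (∀ q : T, @PadicInt (q.1 : ℕ) ⟨q.1.2⟩) where
  toFun c q := ⟨QS.toPi T (c : QS T) q, c.2 q⟩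
  invFun f := ⟨(QS.toPi T).symm (fun q => ((f q : @PadicInt (q.1 : ℕ) ⟨q.1.2⟩) : Qq q.1)),
    fun q => (f q).2⟩
  left_inv c := Subtype.ext (QS_ext T fun q => rfl)
  right_inv f := funext fun q => Subtype.ext rfl
  map_mul' a b := funext fun q => Subtype.ext rfl
  map_add' a b := funext fun q => Subtype.ext rfl

lemma coe_zsEquivPi (c : ZS T) (q : T) :
    ((zsEquivPi T c q : @PadicInt (q.1 : ℕ) ⟨q.1.2⟩) : Qq q.1) = QS.toPi T (c : QS T) q := rfl

instance isNoetherianRing_ZS : IsNoetherianRing (ZS T) :=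
  haveI : ∀ q : T, IsNoetherianRing (@PadicInt (q.1 : ℕ) ⟨q.1.2⟩) := fun q =>
    haveI : Fact (Nat.Prime (q.1 : ℕ)) := ⟨q.1.2⟩
    inferInstance
  isNoetherianRing_of_ringEquiv _ (zsEquivPi T).symm

/-- Membership in `n ^ k ℤ_T` in terms of norms. -/
lemma mem_span_nT_pow_iff (c : ZS T) (k : ℕ) :
    c ∈ (Ideal.span {(nT T : ZS T)}) ^ k ↔
      ∀ q : T, ‖QS.toPi T (c : QS T) q‖ ≤ ‖((nT T : ℕ) : Qq q.1)‖ ^ k := by
  rw [Ideal.span_singleton_pow, Ideal.mem_span_singleton']
  constructor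
  · rintro ⟨a, rfl⟩ q
    rw [Subring.coe_mul, Subring.coe_pow, Subring.coe_natCast, toPi_mul, toPi_pow, toPi_natCast,
      norm_mul, norm_pow]
    calc ‖QS.toPi T (a : QS T) q‖ * ‖((nT T : ℕ) : Qq q.1)‖ ^ k
        ≤ 1 * ‖((nT T : ℕ) : Qq q.1)‖ ^ k :=
          mul_le_mul_of_nonneg_right (a.2 q) (pow_nonneg (norm_nonneg _) _)
      _ = _ := one_mul _
  · intro h
    obtain ⟨d, hd, hcd⟩ := exists_eq_pow_mul_of_norm_le T k (c : QS T) h
    refine ⟨⟨d, hd⟩, Subtype.ext ?_⟩
    rw [Subring.coe_mul, Subring.coe_pow, Subring.coe_natCast, hcd, mul_comm]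

lemma smodEq_iff_sub_mem {R : Type} [CommRing R] (I : Ideal R) (x y : R) :
    x ≡ y [SMOD (I • (⊤ : Submodule R R))] ↔ x - y ∈ I := by
  rw [SModEq.sub_mem, smul_eq_mul, Ideal.mul_top]

instance isAdicComplete_ZS : IsAdicComplete (Ideal.span {(nT T : ZS T)}) (ZS T) := by
  haveI : IsHausdorff (Ideal.span {(nT T : ZS T)}) (ZS T) := by
    refine ⟨fun x hx => ?_⟩
    apply Subtype.ext
    refine QS_ext T fun q => ?_
    have h0 : ∀ k : ℕ, ‖QS.toPi T (x : QS T) q‖ ≤ ‖((nT T : ℕ) : Qq q.1)‖ ^ k := by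
      intro k
      have := hx k
      rw [smodEq_iff_sub_mem, sub_zero] at this
      exact (mem_span_nT_pow_iff T x k).1 this q
    have hlim : ‖QS.toPi T (x : QS T) q‖ ≤ 0 := by
      refine le_of_forall_pos_le_add fun ε hε => ?_
      obtain ⟨k, hk⟩ := exists_pow_lt_of_lt_one hε (norm_nT_lt_one T q)
      rw [zero_add]
      exact (h0 k).trans hk.le
    have : QS.toPi T (x : QS T) q = 0 := norm_le_zero_iff.1 hlim
    rw [this]
    rfl
  haveI : IsPrecomplete (Ideal.span {(nT T : ZS T)}) (ZS T) := by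
    refine ⟨fun f hf => ?_⟩
    have hloc : ∀ q : T, ∃ Lq : @PadicInt (q.1 : ℕ) ⟨q.1.2⟩, ∀ k : ℕ,
        ‖((zsEquivPi T (f k) q : @PadicInt (q.1 : ℕ) ⟨q.1.2⟩) : Qq q.1) - (Lq : Qq q.1)‖ ≤
          ‖((nT T : ℕ) : Qq q.1)‖ ^ k := by
      intro q
      haveI : Fact (Nat.Prime (q.1 : ℕ)) := ⟨q.1.2⟩
      have hpow : ∀ k : ℕ, ‖((nT T : ℕ) : Qq q.1)‖ ^ k = ((q.1 : ℕ) : ℝ) ^ (-(k : ℤ)) := by
        intro k
        rw [norm_nT, zpow_neg, zpow_natCast, inv_pow]
      have hprec := (inferInstance :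
        IsPrecomplete (IsLocalRing.maximalIdeal ℤ_[(q.1 : ℕ)]) ℤ_[(q.1 : ℕ)])
      obtain ⟨Lq, hLq⟩ := hprec.prec (f := fun k => zsEquivPi T (f k) q) (by
        intro m n hmn
        rw [smodEq_iff_sub_mem, PadicInt.maximalIdeal_eq_span_p, Ideal.span_singleton_pow,
          ← PadicInt.norm_le_pow_iff_mem_span_pow, ← hpow]
        have := hf hmn
        rw [smodEq_iff_sub_mem] at this
        exact (mem_span_nT_pow_iff T _ m).1 this q)
      refine ⟨Lq, fun k => ?_⟩
      have := hLq k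
      rw [smodEq_iff_sub_mem, PadicInt.maximalIdeal_eq_span_p, Ideal.span_singleton_pow,
        ← PadicInt.norm_le_pow_iff_mem_span_pow, ← hpow] at this
      exact this
    choose Lq hLq using hloc
    refine ⟨(zsEquivPi T).symm Lq, fun k => ?_⟩
    rw [smodEq_iff_sub_mem, mem_span_nT_pow_iff]
    intro q
    have := hLq q k
    exact this
  exact IsAdicComplete.mk

end ZSComplete

/-! ## 2. `RS` is a finite `ℤ_T`-module -/

section RSFinite

variable (T : Finset Nat.Primes) (L : Type) [Field L] [NumberField L]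

/-- The ring map `𝒪_L → RS`, `a ↦ a ⊗ 1`. -/
def oToRs : 𝓞 L →+* RS T L :=
  (((asDiag T L : L →ₐ[ℚ] AS T L) : L →+* AS T L).comp (algebraMap (𝓞 L) L)).codRestrict (RS T L)
    (fun a => tmul_one_mem_RS T L a)

lemma coe_oToRs (a : 𝓞 L) : ((oToRs T L a : RS T L) : AS T L) = (a : L) ⊗ₜ[ℚ] (1 : QS T) := rfl

/-- The `ℤ_T`-algebra structure on `RS` (local instance). -/
@[reducible] def algZsRs : Algebra (ZS T) (RS T L) := (zsToRs T L).toAlgebra

attribute [local instance] algZsRs

lemma algebraMap_zs_rs : algebraMap (ZS T) (RS T L) = zsToRs T L := rfl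

lemma isIntegral_zs_rs : Algebra.IsIntegral (ZS T) (RS T L) :=
  ⟨fun z => zsToRs_isIntegral T L z⟩

lemma finiteType_zs_rs : Algebra.FiniteType (ZS T) (RS T L) := by
  classical
  obtain ⟨s, hs⟩ := (Module.Finite.fg_top : (⊤ : Submodule ℤ (𝓞 L)).FG)
  refine ⟨⟨s.image (oToRs T L), ?_⟩⟩
  rw [eq_top_iff]
  rintro ⟨z, hz⟩ -
  have ho : ∀ a : 𝓞 L, oToRs T L a ∈
      Algebra.adjoin (ZS T) ((s.image (oToRs T L) : Finset (RS T L)) : Set (RS T L)) := by
    intro a
    have ha : a ∈ Submodule.span ℤ (s : Set (𝓞 L)) := by rw [hs]; trivial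
    induction ha using Submodule.span_induction with
    | mem x hx =>
      exact Algebra.subset_adjoin (Finset.mem_coe.2 (Finset.mem_image_of_mem _ hx))
    | zero => rw [map_zero]; exact Subalgebra.zero_mem _
    | add x y _ _ hx hy => rw [map_add]; exact Subalgebra.add_mem _ hx hy
    | smul m x _ hx =>
      rw [zsmul_eq_mul, map_mul, map_intCast]
      exact Subalgebra.mul_mem _ (Subalgebra.intCast_mem _ m) hx
  induction hz using Subring.closure_induction with
  | mem x hx =>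
    rcases hx with ⟨a, rfl⟩ | ⟨c, hc, rfl⟩
    · exact ho a
    · exact Subalgebra.algebraMap_mem _ (⟨c, hc⟩ : ZS T)
  | zero => exact Subalgebra.zero_mem _
  | one => exact Subalgebra.one_mem _
  | add x y hx hy hx' hy' => exact Subalgebra.add_mem _ hx' hy'
  | neg x hx hx' => exact Subalgebra.neg_mem _ hx'
  | mul x y hx hy hx' hy' => exact Subalgebra.mul_mem _ hx' hy'

lemma moduleFinite_zs_rs : Module.Finite (ZS T) (RS T L) :=
  haveI := isIntegral_zs_rs T L
  haveI := finiteType_zs_rs T L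
  Algebra.IsIntegral.finite

/-! ## 3. `RS` is `n`-adically complete -/

lemma map_span_nT :
    (Ideal.span {(nT T : ZS T)}).map (algebraMap (ZS T) (RS T L)) =
      Ideal.span {(nT T : RS T L)} := by
  rw [Ideal.map_span, Set.image_singleton, map_natCast]

/-- **`RS` is `n`-adically complete** (`n = ∏_{q ∈ T} q`). -/
instance isAdicComplete_RS : IsAdicComplete (Ideal.span {(nT T : RS T L)}) (RS T L) := by
  haveI := moduleFinite_zs_rs T L
  haveI : IsAdicComplete (Ideal.span {(nT T : ZS T)}) (RS T L) :=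
    IsAdicComplete.of_module_finite _ _
  rw [← map_span_nT]
  exact (IsAdicComplete.map_algebraMap_iff (Ideal.span {(nT T : ZS T)}) (RS T L)).2 inferInstance

/-! ## 4. Finite residue ring, Jacobson radical -/

lemma exists_nat_sub_mem_span (c : ZS T) :
    ∃ r : ℕ, r < nT T ∧ c - (r : ZS T) ∈ Ideal.span {(nT T : ZS T)} := by
  obtain ⟨r, hr⟩ := exists_nat_approx T (c : QS T) c.2 1
  refine ⟨r % nT T, Nat.mod_lt _ (nT_pos T), ?_⟩
  have h1 : c - (r : ZS T) ∈ Ideal.span {(nT T : ZS T)} := by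
    rw [← pow_one (Ideal.span {(nT T : ZS T)}), mem_span_nT_pow_iff]
    intro q
    have := hr q
    have h0 : ((c - (r : ZS T) : ZS T) : QS T) = (c : QS T) - (r : QS T) := rfl
    rw [h0, toPi_sub, toPi_natCast]
    exact this
  have h2 : (r : ZS T) - ((r % nT T : ℕ) : ZS T) ∈ Ideal.span {(nT T : ZS T)} := by
    rw [Ideal.mem_span_singleton']
    refine ⟨((r / nT T : ℕ) : ZS T), ?_⟩
    rw [eq_sub_iff_add_eq]
    have := Nat.div_add_mod' r (nT T)
    calc ((r / nT T : ℕ) : ZS T) * (nT T : ZS T) + ((r % nT T : ℕ) : ZS T)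
        = ((r / nT T * nT T + r % nT T : ℕ) : ZS T) := by push_cast; ring
      _ = (r : ZS T) := by rw [this]
  have := (Ideal.span {(nT T : ZS T)}).add_mem h1 h2
  rwa [sub_add_sub_cancel] at this

instance finite_ZS_quot : Finite (ZS T ⧸ Ideal.span {(nT T : ZS T)}) := by
  have hsurj : Function.Surjective
      (fun i : Fin (nT T) => (Ideal.Quotient.mk (Ideal.span {(nT T : ZS T)}) ((i : ℕ) : ZS T))) := by
    intro x
    obtain ⟨c, rfl⟩ := Ideal.Quotient.mk_surjective x
    obtain ⟨r, hr, hc⟩ := exists_nat_sub_mem_span T c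
    exact ⟨⟨r, hr⟩, ((Ideal.Quotient.eq).2 hc).symm⟩
  exact Finite.of_surjective _ hsurj

instance finite_RS_quot : Finite (RS T L ⧸ Ideal.span {(nT T : RS T L)}) := by
  haveI := moduleFinite_zs_rs T L
  have h2 : Finite ((RS T L) ⧸
      ((Ideal.span {(nT T : ZS T)}) • (⊤ : Submodule (ZS T) (RS T L)))) :=
    Submodule.finite_quotient_smul (Ideal.span {(nT T : ZS T)}) Module.Finite.fg_top
  have hle : ((Ideal.span {(nT T : ZS T)}) • (⊤ : Submodule (ZS T) (RS T L))).toAddSubgroup ≤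
      (Ideal.span {(nT T : RS T L)}).toAddSubgroup := by
    intro x hx
    have hx' : x ∈ (Ideal.span {(nT T : ZS T)}) • (⊤ : Submodule (ZS T) (RS T L)) := hx
    refine Submodule.smul_induction_on hx' ?_ ?_
    · intro a ha b _
      show a • b ∈ Ideal.span {(nT T : RS T L)}
      rw [Algebra.smul_def]
      refine Ideal.mul_mem_right _ _ ?_
      rw [← map_span_nT]
      exact Ideal.mem_map_of_mem _ ha
    · intro x y hx hy
      exact (Ideal.span {(nT T : RS T L)}).add_mem hx hy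
  haveI h3 : Finite ((RS T L) ⧸
      ((Ideal.span {(nT T : ZS T)}) • (⊤ : Submodule (ZS T) (RS T L))).toAddSubgroup) := h2
  haveI : ((Ideal.span {(nT T : ZS T)}) •
      (⊤ : Submodule (ZS T) (RS T L))).toAddSubgroup.FiniteIndex :=
    AddSubgroup.finiteIndex_of_finite_quotient
  haveI : (Ideal.span {(nT T : RS T L)}).toAddSubgroup.FiniteIndex :=
    AddSubgroup.finiteIndex_of_le hle
  exact (Ideal.span {(nT T : RS T L)}).toAddSubgroup.finite_quotient_of_finiteIndex

lemma span_nT_le_jacobson :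
    Ideal.span {(nT T : RS T L)} ≤ Ideal.jacobson (⊥ : Ideal (RS T L)) := by
  rw [Ideal.span_le, Set.singleton_subset_iff, SetLike.mem_coe, Ideal.mem_jacobson_bot]
  intro y
  have := isUnit_one_add_nT_mul T L y
  rwa [add_comm] at this

lemma nT_mem_of_isMaximal (M : Ideal (RS T L)) (hM : M.IsMaximal) : (nT T : RS T L) ∈ M := by
  have h1 : Ideal.jacobson (⊥ : Ideal (RS T L)) ≤ M := sInf_le ⟨bot_le, hM⟩
  exact h1 (span_nT_le_jacobson T L (Ideal.subset_span rfl))

end RSFinite

/-! ## 5. Trivial inertia at the maximal ideals of `RS` -/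

section Inertia

variable (T : Finset Nat.Primes) (G L : Type) [Group G] [Field L] [NumberField L]
  [MulSemiringAction G L]

/-- The prime of `𝒪_L` below a maximal ideal of `RS`. -/
def primeBelow (M : Ideal (RS T L)) (hM : M.IsMaximal) : HeightOneSpectrum (𝓞 L) where
  asIdeal := M.comap (oToRs T L)
  isPrime := haveI := hM.isPrime; Ideal.comap_isPrime _ _
  ne_bot := by
    intro h
    have hn : ((nT T : ℕ) : 𝓞 L) ∈ M.comap (oToRs T L) := by
      rw [Ideal.mem_comap, map_natCast]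
      exact nT_mem_of_isMaximal T L M hM
    rw [h, Ideal.mem_bot] at hn
    exact nT_ne_zero T (Nat.cast_eq_zero.1 hn)

lemma isAbove_primeBelow (M : Ideal (RS T L)) (hM : M.IsMaximal) :
    IsAbove T L (primeBelow T L M hM) := by
  have hn : ((nT T : ℕ) : 𝓞 L) ∈ (primeBelow T L M hM).asIdeal := by
    change ((nT T : ℕ) : 𝓞 L) ∈ M.comap (oToRs T L)
    rw [Ideal.mem_comap, map_natCast]
    exact nT_mem_of_isMaximal T L M hM
  rw [nT, Nat.cast_prod] at hn
  obtain ⟨q, hq, hqm⟩ := ((primeBelow T L M hM).isPrime.prod_mem_iff).1 hn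
  exact ⟨q, hq, hqm⟩

/-- **Trivial inertia**: if `L/L^G` is unramified above `T`, an element of `G` acting trivially
modulo a maximal ideal of `RS` is trivial. -/
theorem eq_one_of_forall_sub_mem [FaithfulSMul G L] (hur : IsUnramAbove T G L)
    (M : Ideal (RS T L)) (hM : M.IsMaximal) (g : G)
    (hg : ∀ z : RS T L,
      (⟨asAut T G L g (z : AS T L), asAut_mem_RS T G L g z.2⟩ : RS T L) - z ∈ M) : g = 1 := by
  have h1 : ∀ x : L, g • x = x := by
    refine hur (primeBelow T L M hM) (isAbove_primeBelow T L M hM) g fun x => ?_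
    change g • x - x ∈ M.comap (oToRs T L)
    rw [Ideal.mem_comap, map_sub]
    have := hg (oToRs T L x)
    have h2 : (⟨asAut T G L g (oToRs T L x : AS T L), asAut_mem_RS T G L g (oToRs T L x).2⟩ :
        RS T L) = oToRs T L (g • x) := by
      apply Subtype.ext
      change asAut T G L g (((x : 𝓞 L) : L) ⊗ₜ[ℚ] (1 : QS T)) = _
      rw [coe_oToRs, asAut_tmul]
      rfl
    rwa [h2] at this
  exact eq_of_smul_eq_smul (α := L) fun x => by rw [h1 x, one_smul]

end Inertia

end Fermat.Agent.S55.G.SIndH237.H959
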